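import Fermat.Agent.MUL.Lib.FFL.Defs
import Fermat.Agent.MUL.R38.Ret.Final

section MergeWrap_Lib_FFL_FB_Defs -- from Lib/FFL/FB/Defs.lean

set_option autoImplicit false

namespace Fermat.Agent.FFL.FB

open Fermat.Agent.FFL Fermat.Agent.FlatMod GaloisRep

local notation "Kb" => AlgebraicClosure ℚ
local notation "GK" => (AlgebraicClosure ℚ ≃ₐ[ℚ] AlgebraicClosure ℚ)

/-! ### Rings of integers of fixed fields -/

/-- The ring `P ∩ ℚ̄^Γ` of `Γ`-fixed elements of `P`. -/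
def intRing (P : ValuationSubring Kb) (Γ : Set GK) : Subring Kb where
  carrier := {a | a ∈ P ∧ ∀ σ ∈ Γ, σ a = a}
  mul_mem' := fun {a b} ha hb => ⟨P.mul_mem _ _ ha.1 hb.1, fun σ hσ => by
    rw [map_mul, ha.2 σ hσ, hb.2 σ hσ]⟩
  one_mem' := ⟨P.one_mem, fun σ _ => map_one σ⟩
  add_mem' := fun {a b} ha hb => ⟨P.add_mem _ _ ha.1 hb.1, fun σ hσ => by
    rw [map_add, ha.2 σ hσ, hb.2 σ hσ]⟩
  zero_mem' := ⟨P.zero_mem, fun σ _ => map_zero σ⟩
  neg_mem' := fun {a} ha => ⟨P.neg_mem _ ha.1, fun σ hσ => by rw [map_neg, ha.2 σ hσ]⟩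

theorem mem_intRing {P : ValuationSubring Kb} {Γ : Set GK} {a : Kb} :
    a ∈ intRing P Γ ↔ a ∈ P ∧ ∀ σ ∈ Γ, σ a = a := Iff.rfl

theorem intRing_anti {P : ValuationSubring Kb} {Γ Γ' : Set GK} (h : Γ ⊆ Γ') :
    intRing P Γ' ≤ intRing P Γ :=
  fun _ ha => ⟨ha.1, fun σ hσ => ha.2 σ (h hσ)⟩

theorem intRing_inertia (P : ValuationSubring Kb) :
    intRing P ((P.inertiaSubgroupIn ℚ : Subgroup GK) : Set GK) = inertiaRing P := rfl

theorem natCast_mem_intRing (P : ValuationSubring Kb) (Γ : Set GK) (n : ℕ) :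
    (n : Kb) ∈ intRing P Γ := natCast_mem _ n

theorem intCast_mem_intRing (P : ValuationSubring Kb) (Γ : Set GK) (n : ℤ) :
    (n : Kb) ∈ intRing P Γ := intCast_mem _ n

/-! ### Valuation conditions in division form -/

/-- `v(x) > 1/(p-1)`: the condition under which `(1 + x)^p ≡ 1 + p x` modulo `p x 𝔪`. -/
def Small (p : ℕ) (P : ValuationSubring Kb) (x : Kb) : Prop :=
  x ^ (p - 1) / (p : Kb) ∈ P.nonunits

/-- `π₁ ^ (p² - 1) = -p`. -/
def IsPi1 (p : ℕ) (π₁ : Kb) : Prop := π₁ ^ (p ^ 2 - 1) = -(p : Kb)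

/-- The stabiliser of `x` in the inertia group of `P`. -/
def stabI (P : ValuationSubring Kb) (x : Kb) : Subgroup GK where
  carrier := {σ | σ ∈ P.inertiaSubgroupIn ℚ ∧ σ x = x}
  mul_mem' := fun {a b} ha hb => ⟨mul_mem ha.1 hb.1, by
    rw [AlgEquiv.mul_apply, hb.2, ha.2]⟩
  one_mem' := ⟨one_mem _, rfl⟩
  inv_mem' := fun {a} ha => ⟨inv_mem ha.1, by
    have h := congrArg (a⁻¹ : GK) ha.2
    rw [← AlgEquiv.mul_apply, inv_mul_cancel, AlgEquiv.one_apply] at h
    exact h.symm⟩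

theorem mem_stabI {P : ValuationSubring Kb} {x : Kb} {σ : GK} :
    σ ∈ stabI P x ↔ σ ∈ P.inertiaSubgroupIn ℚ ∧ σ x = x := Iff.rfl

theorem stabI_le (P : ValuationSubring Kb) (x : Kb) : stabI P x ≤ P.inertiaSubgroupIn ℚ :=
  fun _ h => h.1

/-- `O₁ = P ∩ ℚ̄^{N₁}`, `N₁ = stabI P π₁`: the integers of `K₁ = K'(π₁)`. -/
abbrev O1 (P : ValuationSubring Kb) (π₁ : Kb) : Subring Kb := intRing P (stabI P π₁ : Set GK)

/-- The tame character `g ↦ g π₁ / π₁` (values in the `(p²-1)`-th roots of unity; its reduction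
modulo the maximal ideal of `P` is the fundamental character `ω₂` of level 2). -/
noncomputable def tameChar (π₁ : Kb) (g : GK) : Kb := g π₁ / π₁

/-! ### The unit filtration (levels with respect to `π₁`) -/

/-- `u ∈ U(i) = 1 + π₁^i P`. -/
def LevelGE (P : ValuationSubring Kb) (π₁ : Kb) (i : ℕ) (u : Kb) : Prop :=
  (u - 1) / π₁ ^ i ∈ P

/-- `u - 1` has valuation exactly `i · v(π₁)`. -/
def LevelEq (P : ValuationSubring Kb) (π₁ : Kb) (i : ℕ) (u : Kb) : Prop :=
  (u - 1) / π₁ ^ i ∈ P ∧ (u - 1) / π₁ ^ i ∉ P.nonunits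

/-- `c` represents the leading coefficient of `u` at level `i`:
`u ≡ 1 + c π₁^i` modulo `π₁^i 𝔪`. -/
def LcRel (P : ValuationSubring Kb) (π₁ : Kb) (i : ℕ) (u c : Kb) : Prop :=
  (u - 1) / π₁ ^ i - c ∈ P.nonunits

/-- `x ≡ y` modulo the maximal ideal of `P`. -/
def ResEq (P : ValuationSubring Kb) (x y : Kb) : Prop := x - y ∈ P.nonunits

/-! ### Kummer generators -/

/-- `β` is a Kummer generator for the character `χ : Γ → ℤ/p` (with respect to `ζ`):
`β ≠ 0` and `g β = ζ ^ χ(g) · β` for all `g ∈ Γ`. -/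
def IsKummerGen (p : ℕ) (Γ : Set GK) (ζ : Kb) (χ : GK → ZMod p) (β : Kb) : Prop :=
  β ≠ 0 ∧ ∀ g ∈ Γ, g β = ζ ^ (χ g).val * β

/-! ### `I`-orders -/

/-- An `I`-order on `W`: an `R'`-subalgebra `B` of `W → ℚ̄`, `R' = inertiaRing P`, which is the
`R'`-span of a `ℚ̄`-basis `b` of the space of all functions, and whose elements are
inertia-equivariant, `P`-valued and closed under comultiplication. -/
structure IOrder (P : ValuationSubring Kb) (W : Type) [AddCommGroup W] (act : GK → W → W) where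
  /-- the underlying module of functions -/
  B : Submodule (inertiaRing P) (W → Kb)
  one_mem : (1 : W → Kb) ∈ B
  mul_mem : ∀ f ∈ B, ∀ g ∈ B, f * g ∈ B
  /-- the rank (`= #W`) -/
  n : ℕ
  /-- a basis -/
  b : Fin n → (W → Kb)
  li : LinearIndependent Kb b
  spanTop : Submodule.span Kb (Set.range b) = ⊤
  span : B = Submodule.span (inertiaRing P) (Set.range b)
  equiv : ∀ f ∈ B, ∀ σ ∈ P.inertiaSubgroupIn ℚ, ∀ w : W, f (act σ w) = σ (f w)
  val : ∀ f ∈ B, ∀ w : W, f w ∈ P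
  comul : ComulClosed (B : Set (W → Kb))

/-- The order is connected: all its functions are constant modulo the maximal ideal. -/
def IOrder.IsConnected {P : ValuationSubring Kb} {W : Type} [AddCommGroup W]
    {act : GK → W → W} (O : IOrder P W act) : Prop :=
  ∀ f ∈ O.B, ∀ w : W, f w - f 0 ∈ P.nonunits

/-- The order is étale: the indicator functions of the points belong to it (then inertia acts
trivially on `W`). -/
def IOrder.IsEtale {P : ValuationSubring Kb} {W : Type} [AddCommGroup W]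
    {act : GK → W → W} (O : IOrder P W act) : Prop :=
  ∀ w₀ : W, ∃ f ∈ O.B, f w₀ = 1 ∧ ∀ w : W, w ≠ w₀ → f w = 0

end Fermat.Agent.FFL.FB
end MergeWrap_Lib_FFL_FB_Defs
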