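import Fermat.Agent.MUL.Lib.FFL.Defs
import Fermat.Agent.MUL.Lib.BadRed.Graph.GlueOrd

section MergeWrap_Lib_FFL_FB_UnitDefs -- from Lib/FFL/FB/UnitDefs.lean

set_option autoImplicit false

namespace Fermat.Agent.FFL.FB

open Fermat.Agent.FFL

local notation "Kb" => AlgebraicClosure ℚ
local notation "GK" => (AlgebraicClosure ℚ ≃ₐ[ℚ] AlgebraicClosure ℚ)

/-- `x` is fixed by every element of `N`. -/
def FixedBy (N : Subgroup GK) (x : Kb) : Prop := ∀ σ ∈ N, σ x = x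

/-- `u ≡ 1` modulo `π1 ^ i`. -/
def InU (P : ValuationSubring Kb) (π1 : Kb) (i : ℕ) (u : Kb) : Prop :=
  (u - 1) / π1 ^ i ∈ P

/-- `u ≡ 1 + a π1 ^ i` modulo `π1 ^ (i + 1)`: `a` is a leading coefficient of `u` at level `i`. -/
def LcAt (P : ValuationSubring Kb) (π1 : Kb) (i : ℕ) (u a : Kb) : Prop :=
  (u - 1 - a * π1 ^ i) / π1 ^ (i + 1) ∈ P

/-- `ε ≡ ε0 π1 ^ s` modulo `π1 ^ (s + 1)`. -/
def LeadAt (P : ValuationSubring Kb) (π1 : Kb) (s : ℕ) (ε ε0 : Kb) : Prop :=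
  (ε - ε0 * π1 ^ s) / π1 ^ (s + 1) ∈ P

/-- `u'` is a twist of `u` by `ε`: `u' ≡ τ_ε(u)` modulo `p ε`, where `τ_ε` is the identity on
`R'` and `τ_ε π1 = π1 (1 + ε)`. -/
def TwistOf (p : ℕ) (P : ValuationSubring Kb) (π1 ε u u' : Kb) : Prop :=
  ∃ r : ℕ → Kb, (∀ j, r j ∈ inertiaRing P) ∧
    u = ∑ j ∈ Finset.range (p ^ 2 - 1), r j * π1 ^ j ∧
    ∃ t ∈ P, u' = ∑ j ∈ Finset.range (p ^ 2 - 1), r j * (π1 * (1 + ε)) ^ j + (p : Kb) * ε * t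

/-- The hypotheses of UNIT.  `teich` = F1 (the residue field of `R'` is the residue field of `P`),
`unif` = "`π1` is a uniformiser of `O1`" (F3), `root` = F4 (`p`-th roots near `1`). -/
structure UnitSetting (p : ℕ) (P : ValuationSubring Kb) (π1 : Kb) (N : Subgroup GK) : Prop where
  hp : p.Prime
  hP : P.LiesOverPrime p
  hπ : π1 ^ (p ^ 2 - 1) = -(p : Kb)
  hNI : N ≤ P.inertiaSubgroupIn ℚ
  hπN : FixedBy N π1
  teich : ∀ x ∈ P, ∃ t ∈ inertiaRing P, x - t ∈ P.nonunits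
  unif : ∀ x ∈ P.nonunits, FixedBy N x → x / π1 ∈ P
  root : ∀ x ∈ P, FixedBy N x → x ^ (p - 1) / (p : Kb) ^ p ∈ P.nonunits →
    ∃ y : Kb, FixedBy N y ∧ y ^ p = 1 + x

/-! ### The statements of UNIT -/

/-- **U1**: leading coefficients exist (in `R'`). -/
def U1Statement (P : ValuationSubring Kb) (π1 : Kb) (N : Subgroup GK) : Prop :=
  ∀ (i : ℕ) (u : Kb), FixedBy N u → InU P π1 i u → ∃ a ∈ inertiaRing P, LcAt P π1 i u a

/-- **U1'**: leading coefficients are unique modulo the maximal ideal, additive, and a leading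
coefficient in the maximal ideal means level `≥ i + 1`. -/
def U1aStatement (P : ValuationSubring Kb) (π1 : Kb) : Prop :=
  (∀ (i : ℕ) (u a a' : Kb), LcAt P π1 i u a → LcAt P π1 i u a' → a - a' ∈ P.nonunits) ∧
  (∀ (i : ℕ) (u a a' : Kb), a ∈ inertiaRing P → a' ∈ inertiaRing P → LcAt P π1 i u a →
    a - a' ∈ P.nonunits → LcAt P π1 i u a') ∧
  (∀ (i : ℕ) (u a : Kb), a ∈ P → LcAt P π1 i u a → InU P π1 i u) ∧
  (∀ (i : ℕ) (u : Kb), InU P π1 (i + 1) u ↔ LcAt P π1 i u 0) ∧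
  (∀ (i : ℕ) (u u' a a' : Kb), 0 < i → a ∈ P → a' ∈ P → LcAt P π1 i u a → LcAt P π1 i u' a' →
    LcAt P π1 i (u * u') (a + a')) ∧
  (∀ (i : ℕ) (u a : Kb), 0 < i → a ∈ P → LcAt P π1 i u a → LcAt P π1 i u⁻¹ (-a))

/-- **U2**: `U(p² + p)` consists of `p`-th powers (of elements of `K1`). -/
def U2Statement (p : ℕ) (P : ValuationSubring Kb) (π1 : Kb) (N : Subgroup GK) : Prop :=
  ∀ u : Kb, FixedBy N u → InU P π1 (p ^ 2 + p) u → ∃ y : Kb, FixedBy N y ∧ y ^ p = u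

/-- **U3**: (a) a `p`-th power of level `≥ i`, `p ∤ i`, `i < p² + p`, has level `≥ i + 1`
(so: `u ∈ U(i)` with `lc_i(u) ≠ 0` is not in `(K1ˣ)^p U(i+1)`);
(b) for `p ∣ i`, `0 < i < p² + p`: `U(i) ⊆ (K1ˣ)^p U(i+1)`. -/
def U3Statement (p : ℕ) (P : ValuationSubring Kb) (π1 : Kb) (N : Subgroup GK) : Prop :=
  (∀ (i : ℕ) (z : Kb), ¬ p ∣ i → i < p ^ 2 + p → FixedBy N z → InU P π1 i (z ^ p) →
    InU P π1 (i + 1) (z ^ p)) ∧
  (∀ (i : ℕ) (u : Kb), p ∣ i → 0 < i → i < p ^ 2 + p → FixedBy N u → InU P π1 i u →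
    ∃ z : Kb, FixedBy N z ∧ z ≠ 0 ∧ InU P π1 (i + 1) (u / z ^ p))

/-- **U4** (twist): for `u ∈ U(i)`, `0 < i < p² - 1`, with leading coefficient `a`, and
`ε ≡ ε0 π1^s` (`s ≥ 1`): a twist `u'` of `u` by `ε` has `u'/u ∈ U(i+s)` with leading coefficient
`i a ε0`.  Non-units: if `u = π1^m · unit`, `0 < m < p² - 1`, then `u'/u ∈ U(s)` with leading
coefficient `m ε0`. -/
def U4Statement (p : ℕ) (P : ValuationSubring Kb) (π1 : Kb) : Prop :=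
  (∀ (i s : ℕ) (u u' a ε ε0 : Kb), 0 < i → i < p ^ 2 - 1 → 0 < s → a ∈ P → ε0 ∈ P →
    LcAt P π1 i u a → LeadAt P π1 s ε ε0 → TwistOf p P π1 ε u u' →
    LcAt P π1 (i + s) (u' / u) ((i : Kb) * a * ε0)) ∧
  (∀ (m s : ℕ) (u u' ε ε0 : Kb), 0 < m → m < p ^ 2 - 1 → 0 < s → ε0 ∈ P →
    u / π1 ^ m ∈ P → π1 ^ m / u ∈ P →
    LeadAt P π1 s ε ε0 → TwistOf p P π1 ε u u' →
    LcAt P π1 s (u' / u) ((m : Kb) * ε0))

/-- **U5** (Galois action): for `σ` in the decomposition group of `P`,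
`lc_i(σ u) = (σ π1 / π1)^i · σ(lc_i u)`. -/
def U5Statement (P : ValuationSubring Kb) (π1 : Kb) : Prop :=
  ∀ (σ : GK), (∀ x : Kb, x ∈ P → σ x ∈ P) → ∀ (i : ℕ) (u a : Kb),
    LcAt P π1 i u a → LcAt P π1 i (σ u) ((σ π1 / π1) ^ i * σ a)

/-- **U6** (normal form modulo `p`-th powers): every `u ∈ K1ˣ` is, up to a `p`-th power of `K1ˣ`,
(a) `π1^m · unit` with `0 < m < p`, or (b) `1`, or (c) an element of `U(i)`, `0 < i < p² + p`,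
`p ∤ i`, with a leading coefficient which is a unit of `R'`. -/
def U6Statement (p : ℕ) (P : ValuationSubring Kb) (π1 : Kb) (N : Subgroup GK) : Prop :=
  ∀ u : Kb, u ≠ 0 → FixedBy N u → ∃ z : Kb, FixedBy N z ∧ z ≠ 0 ∧
    ((∃ m : ℕ, 0 < m ∧ m < p ∧ u / z ^ p / π1 ^ m ∈ P ∧ π1 ^ m / (u / z ^ p) ∈ P) ∨
      u = z ^ p ∨
      ∃ (i : ℕ) (a : Kb), 0 < i ∧ i < p ^ 2 + p ∧ ¬ p ∣ i ∧ a ∈ inertiaRing P ∧
        a ∉ P.nonunits ∧ LcAt P π1 i (u / z ^ p) a)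

/-! ### The statements of KUM -/

/-- **KUM** (Kummer generators exist): `Γ ≤ N` normal of finite index and closed in `N` (an
element of `N` fixing `ℚ̄^Γ` is in `Γ`), `χ` a character of `N` trivial on `Γ` with `N`-fixed
values: there is `a ≠ 0` fixed by `Γ` with `σ a = χ σ · a` for `σ ∈ N`. -/
def KumStatement : Prop :=
  ∀ (N Γ : Subgroup GK), Γ ≤ N → (Γ.subgroupOf N).Normal → (Γ.subgroupOf N).FiniteIndex →
    (∀ σ ∈ N, (∀ x : Kb, FixedBy Γ x → σ x = x) → σ ∈ Γ) →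
    ∀ χ : GK → Kb, (∀ σ ∈ N, χ σ ≠ 0) → (∀ σ ∈ N, ∀ τ ∈ N, χ (σ * τ) = χ σ * χ τ) →
      (∀ σ ∈ N, FixedBy N (χ σ)) → (∀ γ ∈ Γ, χ γ = 1) →
      ∃ a : Kb, a ≠ 0 ∧ FixedBy Γ a ∧ ∀ σ ∈ N, σ a = χ σ * a

end Fermat.Agent.FFL.FB
end MergeWrap_Lib_FFL_FB_UnitDefs
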