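import Fermat.Agent.MUL.Lib.FFL.Arith
import Fermat.Agent.MUL.Lib.FFL.Red
import Fermat.Agent.MUL.Orig.Lib.Herbrand.Cyclo

section MergeWrap_Lib_FFL_FB_FieldRoot -- from Lib/FFL/FB/FieldRoot.lean

set_option autoImplicit false
set_option linter.style.haveILetI false
set_option linter.unusedSectionVars false

namespace Fermat.Agent.FFL.FB

open Fermat.Agent.FFL Fermat.Agent.Cyclo Polynomial

local notation "Kb" => AlgebraicClosure ℚ
local notation "GK" => (AlgebraicClosure ℚ ≃ₐ[ℚ] AlgebraicClosure ℚ)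

variable {p : ℕ} {P : ValuationSubring Kb}

/-- `z` is near `0` at depth `> 1/(p-1)`: `z ^ (p-1) / p` is a nonunit of `P`. -/
def NearZero (p : ℕ) (P : ValuationSubring Kb) (z : Kb) : Prop :=
  z ^ (p - 1) / (p : Kb) ∈ P.nonunits

theorem nearZero_iff (hp : p.Prime) (z : Kb) :
    NearZero p P z ↔ P.valuation z ^ (p - 1) < P.valuation (p : Kb) := by
  have hvp0 : P.valuation (p : Kb) ≠ 0 := (Valuation.ne_zero_iff _).2 (ar_p_ne_zero hp)
  unfold NearZero
  rw [ValuationSubring.mem_nonunits_iff, map_div₀, map_pow, div_lt_iff₀ (zero_lt_iff.2 hvp0),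
    one_mul]

theorem nearZero_zero (hp : p.Prime) (hp1 : 1 < p) : NearZero p P 0 := by
  rw [nearZero_iff hp, map_zero, zero_pow (by omega)]
  exact zero_lt_iff.2 ((Valuation.ne_zero_iff _).2 (ar_p_ne_zero hp))

theorem nearZero_neg (hp : p.Prime) {z : Kb} (hz : NearZero p P z) : NearZero p P (-z) := by
  rw [nearZero_iff hp] at hz ⊢
  rwa [Valuation.map_neg]

theorem nearZero_add (hp : p.Prime) {z w : Kb} (hz : NearZero p P z) (hw : NearZero p P w) :
    NearZero p P (z + w) := by
  rw [nearZero_iff hp] at hz hw ⊢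
  rcases le_total (P.valuation z) (P.valuation w) with h | h
  · refine lt_of_le_of_lt (pow_le_pow_left₀ zero_le ?_ _) hw
    exact (P.valuation.map_add z w).trans (max_le h le_rfl)
  · refine lt_of_le_of_lt (pow_le_pow_left₀ zero_le ?_ _) hz
    exact (P.valuation.map_add z w).trans (max_le le_rfl h)

theorem nearZero_sub (hp : p.Prime) {z w : Kb} (hz : NearZero p P z) (hw : NearZero p P w) :
    NearZero p P (z - w) := by
  rw [sub_eq_add_neg]
  exact nearZero_add hp hz (nearZero_neg hp hw)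

/-- The decomposition group preserves the valuation. -/
theorem val_decomp {σ : GK} (hσ : σ ∈ P.decompositionSubgroup ℚ) (x : Kb) :
    P.valuation (σ x) = P.valuation x := by
  have hle : ∀ (τ : GK), τ ∈ P.decompositionSubgroup ℚ → ∀ y : Kb,
      P.valuation (τ y) ≤ P.valuation y := by
    intro τ hτ y
    by_cases hy0 : y = 0
    · rw [hy0, map_zero]
    by_contra hlt
    rw [not_le] at hlt
    -- `y / τ y` is a nonunit, so `τ⁻¹ (y / τ y)`-type argument: use `τ y / y`
    have hτy0 : τ y ≠ 0 := fun h => hy0 ((map_eq_zero_iff τ τ.injective).1 h)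
    -- consider `u = y / τ y`, `v u < 1`
    have hu : P.valuation (y / τ y) < 1 := by
      rw [map_div₀, div_lt_one₀ (zero_lt_iff.2 ((Valuation.ne_zero_iff _).2 hτy0))]
      exact hlt
    -- then all `τ^n`-translates: simplest is to use integrality of the inverse
    -- `τ y / y ∉ P`, but `(τ y / y)` is `τ`-conjugate to ... we use the finite orbit.
    -- Finite orbit: there is `n > 0` with `τ ^ n y = y`.
    obtain ⟨n, hn, hfix⟩ : ∃ n : ℕ, 0 < n ∧ (τ ^ n) y = y := by
      have hfin : (Set.range fun k : ℕ => (τ ^ k) y).Finite := by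
        have halg : IsAlgebraic ℚ y := (AlgebraicClosure.isAlgebraic ℚ).isAlgebraic y
        refine ((minpoly ℚ y).rootSet_finite Kb).subset ?_
        rintro _ ⟨k, rfl⟩
        rw [Polynomial.mem_rootSet]
        refine ⟨minpoly.ne_zero halg.isIntegral, ?_⟩
        rw [Polynomial.aeval_algHom_apply, minpoly.aeval, map_zero]
      obtain ⟨a, b, hab, heq⟩ : ∃ a b : ℕ, a < b ∧ (τ ^ a) y = (τ ^ b) y := by
        by_contra hcon
        push Not at hcon
        have hinj : Function.Injective (fun k : ℕ => (τ ^ k) y) := by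
          intro a b hab
          by_contra hne
          rcases lt_or_gt_of_ne hne with h | h
          · exact hcon a b h hab
          · exact hcon b a h hab.symm
        exact Set.infinite_range_of_injective hinj hfin
      refine ⟨b - a, Nat.sub_pos_of_lt hab, ?_⟩
      have h1 : (τ ^ b) y = (τ ^ a) ((τ ^ (b - a)) y) := by
        rw [← AlgEquiv.mul_apply, ← pow_add, Nat.add_sub_cancel' (le_of_lt hab)]
      rw [h1] at heq
      exact ((τ ^ a).injective heq).symm
    -- `v (τ^k y)` is strictly increasing in `k`, contradiction with `τ^n y = y`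
    have hstep : ∀ k : ℕ, P.valuation ((τ ^ k) y) < P.valuation ((τ ^ (k + 1)) y) := by
      intro k
      have hk : (τ ^ k) ∈ P.decompositionSubgroup ℚ := Subgroup.pow_mem _ hτ k
      have h1 : (τ ^ k) (y / τ y) ∈ P.nonunits := by
        have h2 : y / τ y ∈ P.nonunits := (ValuationSubring.mem_nonunits_iff P).2 hu
        exact red_decomp_mem_nonunits P hk h2
      rw [ValuationSubring.mem_nonunits_iff, map_div₀, map_div₀] at h1
      have h3 : (τ ^ k) (τ y) = (τ ^ (k + 1)) y := by
        rw [pow_succ, AlgEquiv.mul_apply]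
      rw [h3] at h1
      have h4 : (τ ^ (k + 1)) y ≠ 0 :=
        fun h => hy0 ((map_eq_zero_iff _ (τ ^ (k + 1)).injective).1 h)
      rwa [div_lt_one₀ (zero_lt_iff.2 ((Valuation.ne_zero_iff _).2 h4))] at h1
    have hmono : ∀ k : ℕ, 0 < k → P.valuation y < P.valuation ((τ ^ k) y) := by
      intro k hk
      induction k with
      | zero => exact absurd hk (lt_irrefl _)
      | succ k ih =>
        rcases Nat.eq_zero_or_pos k with h0 | hpos
        · subst h0
          have := hstep 0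
          simpa using this
        · exact (ih hpos).trans (hstep k)
    have := hmono n hn
    rw [hfix] at this
    exact lt_irrefl _ this
  refine le_antisymm (hle σ hσ x) ?_
  have h1 := hle σ⁻¹ (Subgroup.inv_mem _ hσ) (σ x)
  have h2 : σ⁻¹ (σ x) = x := σ.symm_apply_apply x
  rwa [h2] at h1

theorem nearZero_decomp (hp : p.Prime) {σ : GK} (hσ : σ ∈ P.decompositionSubgroup ℚ) {z : Kb}
    (hz : NearZero p P z) : NearZero p P (σ z) := by
  rw [nearZero_iff hp] at hz ⊢
  rwa [val_decomp hσ]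

/-- `v (ξ - 1) ^ (p-1) = v p` for a `p`-th root of unity `ξ ≠ 1`. -/
theorem val_root_sub_one_pow (hp : p.Prime) {ξ : Kb} (hξ : ξ ^ p = 1) (hξ1 : ξ ≠ 1) :
    P.valuation (ξ - 1) ^ (p - 1) = P.valuation (p : Kb) := by
  have : Fact p.Prime := ⟨hp⟩
  have hξP : ξ ∈ P := pow_eq_one_mem P hp.ne_zero hξ
  have hsum : ∑ i ∈ Finset.range p, ξ ^ i = 0 := by
    have h1 : (∑ i ∈ Finset.range p, ξ ^ i) * (ξ - 1) = 0 := by
      rw [geom_sum_mul, hξ, sub_self]
    rcases mul_eq_zero.mp h1 with h2 | h2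
    · exact h2
    · exact absurd (sub_eq_zero.mp h2) hξ1
  apply le_antisymm
  · obtain ⟨g, hg⟩ := Fermat.Agent.Herbrand.exists_X_sub_one_pow_eq p
    have h1 := congrArg (aeval ξ) hg
    simp only [map_sub, map_pow, aeval_X, map_one, map_add, map_sum, map_mul, aeval_C,
      hsum, zero_add] at h1
    have h2 : (algebraMap ℤ Kb) (p : ℤ) = (p : Kb) := by simp
    rw [h2] at h1
    rw [← map_pow, h1, map_mul]
    exact mul_le_of_le_one_right' ((P.valuation_le_one_iff _).2 (ar_aeval_mem P g hξP))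
  · obtain ⟨h, c, hc⟩ := Fermat.Agent.Herbrand.exists_prime_eq_mul_X_sub_one_pow p
    have h1 := congrArg (aeval ξ) hc
    simp only [map_sub, map_pow, aeval_X, map_one, map_add, map_sum, map_mul, aeval_C,
      hsum, mul_zero, add_zero] at h1
    have h2 : (algebraMap ℤ Kb) (p : ℤ) = (p : Kb) := by simp
    rw [h2] at h1
    rw [h1, map_mul, map_pow]
    exact mul_le_of_le_one_left' ((P.valuation_le_one_iff _).2 (ar_aeval_mem P h hξP))

/-- **Uniqueness**: two `p`-th roots of the same unit which are both near `1` are equal. -/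
theorem pthRoot_unique (hp : p.Prime) {y y' : Kb} (hy0 : y ≠ 0) (hyv : P.valuation y = 1)
    (hpow : y' ^ p = y ^ p) (hy : NearZero p P (y - 1)) (hy' : NearZero p P (y' - 1)) :
    y' = y := by
  by_contra hne
  set ξ := y' / y with hξdef
  have hξ : ξ ^ p = 1 := by
    rw [hξdef, div_pow, hpow, div_self (pow_ne_zero _ hy0)]
  have hξ1 : ξ ≠ 1 := by
    intro h
    apply hne
    rw [hξdef, div_eq_one_iff_eq hy0] at h
    exact h
  have h1 : y' - y = (ξ - 1) * y := by
    rw [hξdef]
    field_simp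
  have h2 : NearZero p P (y' - y) := by
    have : y' - y = (y' - 1) - (y - 1) := by ring
    rw [this]
    exact nearZero_sub hp hy' hy
  rw [nearZero_iff hp, h1, map_mul, hyv, mul_one, val_root_sub_one_pow hp hξ hξ1] at h2
  exact lt_irrefl _ h2

/-- **Existence**: if `v_add x > p/(p-1)`, then `1 + x` has a `p`-th root near `1`. -/
theorem pthRoot_exists (hp : p.Prime) {x : Kb}
    (hx : x ^ (p - 1) / (p : Kb) ^ p ∈ P.nonunits) :
    ∃ y : Kb, y ^ p = 1 + x ∧ NearZero p P (y - 1) := by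
  classical
  have hp0 : (p : Kb) ≠ 0 := ar_p_ne_zero hp
  have hvp0 : P.valuation (p : Kb) ≠ 0 := (Valuation.ne_zero_iff _).2 hp0
  have hvx : P.valuation x ^ (p - 1) < P.valuation (p : Kb) ^ p := by
    rw [ValuationSubring.mem_nonunits_iff, map_div₀, map_pow, map_pow,
      div_lt_iff₀ (zero_lt_iff.2 (pow_ne_zero _ hvp0)), one_mul] at hx
    exact hx
  obtain ⟨y₀, hy₀⟩ := IsAlgClosed.exists_pow_nat_eq (1 + x) hp.pos
  have hNZ : NeZero ((p : ℕ) : Kb) := ⟨hp0⟩
  obtain ⟨ζ, hζ⟩ := HasEnoughRootsOfUnity.exists_primitiveRoot Kb p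
  have hprod : y₀ ^ p - 1 = ∏ μ ∈ nthRootsFinset p (1 : Kb), (y₀ - μ) := by
    have h1 := hζ.pow_sub_pow_eq_prod_sub_mul y₀ 1 hp.pos
    simpa using h1
  have hcard : (nthRootsFinset p (1 : Kb)).card = p := hζ.card_nthRootsFinset
  -- some root `μ` has `y₀ - μ` near zero
  have hex : ∃ μ ∈ nthRootsFinset p (1 : Kb), NearZero p P (y₀ - μ) := by
    by_contra hcon
    push Not at hcon
    have hall : ∀ μ ∈ nthRootsFinset p (1 : Kb),
        P.valuation (p : Kb) ≤ P.valuation (y₀ - μ) ^ (p - 1) := by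
      intro μ hμ
      have := hcon μ hμ
      rw [nearZero_iff hp, not_lt] at this
      exact this
    have h2 : P.valuation (p : Kb) ^ p ≤ P.valuation x ^ (p - 1) := by
      have hxe : x = ∏ μ ∈ nthRootsFinset p (1 : Kb), (y₀ - μ) := by
        rw [← hprod, hy₀]
        ring
      rw [hxe, map_prod, ← Finset.prod_pow]
      calc P.valuation (p : Kb) ^ p
          = ∏ _μ ∈ nthRootsFinset p (1 : Kb), P.valuation (p : Kb) := by
            rw [Finset.prod_const, hcard]
        _ ≤ ∏ μ ∈ nthRootsFinset p (1 : Kb), P.valuation (y₀ - μ) ^ (p - 1) :=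
            Finset.prod_le_prod' hall
    exact absurd (lt_of_le_of_lt h2 hvx) (lt_irrefl _)
  obtain ⟨μ, hμ, hnear⟩ := hex
  have hμp : μ ^ p = 1 := (mem_nthRootsFinset hp.pos 1).1 hμ
  have hμ0 : μ ≠ 0 := by
    intro h
    rw [h, zero_pow hp.ne_zero] at hμp
    exact zero_ne_one hμp
  have hμv : P.valuation μ = 1 := by
    have h1 : P.valuation μ ^ p = 1 := by rw [← map_pow, hμp, map_one]
    exact (pow_eq_one_iff_of_nonneg zero_le hp.ne_zero).1 h1
  refine ⟨y₀ / μ, ?_, ?_⟩
  · rw [div_pow, hμp, div_one, hy₀]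
  · have h1 : y₀ / μ - 1 = (y₀ - μ) / μ := by
      field_simp
    rw [nearZero_iff hp, h1, map_div₀, hμv, div_one]
    exact (nearZero_iff hp _).1 hnear

/-- **F4** (`p`-th roots near `1`): `Γ` a subgroup of the decomposition group, `x ∈ P` fixed by
`Γ` with `v_add x > p/(p-1)`.  Then `1 + x = y ^ p` with `y ∈ P` fixed by `Γ` (and `y` near `1`). -/
theorem exists_pthRoot_fixed (hp : p.Prime) (hP : P.LiesOverPrime p) (Γ : Subgroup GK)
    (hΓ : Γ ≤ P.decompositionSubgroup ℚ) {x : Kb} (hxΓ : ∀ σ ∈ Γ, σ x = x)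
    (hx : x ^ (p - 1) / (p : Kb) ^ p ∈ P.nonunits) :
    ∃ y : Kb, y ∈ P ∧ (∀ σ ∈ Γ, σ y = y) ∧ y ^ p = 1 + x ∧ NearZero p P (y - 1) := by
  have hp0 : (p : Kb) ≠ 0 := ar_p_ne_zero hp
  have hvp0 : P.valuation (p : Kb) ≠ 0 := (Valuation.ne_zero_iff _).2 hp0
  have hvp : P.valuation (p : Kb) < 1 := ar_val_p_lt hP
  obtain ⟨y, hy, hnear⟩ := pthRoot_exists hp hx
  -- `x` is a nonunit
  have hvx : P.valuation x < 1 := by
    rw [ValuationSubring.mem_nonunits_iff, map_div₀, map_pow, map_pow,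
      div_lt_iff₀ (zero_lt_iff.2 (pow_ne_zero _ hvp0)), one_mul] at hx
    by_contra hcon
    rw [not_lt] at hcon
    have h1 : (1 : _) ≤ P.valuation x ^ (p - 1) := one_le_pow₀ hcon
    have h2 : P.valuation (p : Kb) ^ p < 1 := pow_lt_one₀ zero_le hvp hp.ne_zero
    exact absurd (lt_of_le_of_lt h1 (hx.trans h2)) (lt_irrefl _)
  have hv1x : P.valuation (1 + x) = 1 := by
    have := Valuation.map_add_eq_of_lt_left P.valuation (x := 1) (y := x) (by rwa [map_one])
    rwa [map_one] at this
  have hyv : P.valuation y = 1 := by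
    have h1 : P.valuation y ^ p = 1 := by rw [← map_pow, hy, hv1x]
    exact (pow_eq_one_iff_of_nonneg zero_le hp.ne_zero).1 h1
  have hy0 : y ≠ 0 := by
    intro h
    rw [h, map_zero] at hyv
    exact zero_ne_one hyv
  refine ⟨y, (P.valuation_le_one_iff y).1 (le_of_eq hyv), fun σ hσ => ?_, hy, hnear⟩
  apply pthRoot_unique hp hy0 hyv
  · rw [← map_pow, hy, map_add, map_one, hxΓ σ hσ]
  · exact hnear
  · have h1 : σ y - 1 = σ (y - 1) := by rw [map_sub, map_one]
    rw [h1]
    exact nearZero_decomp hp (hΓ hσ) hnear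

end Fermat.Agent.FFL.FB
end MergeWrap_Lib_FFL_FB_FieldRoot
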