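import Mathlib.LinearAlgebra.Lagrange
import Mathlib.GroupTheory.Index
import Mathlib.GroupTheory.GroupAction.Quotient
import Fermat.Agent.MUL.Lib.FFL.FB.Defs
import Fermat.Agent.MUL.Lib.FFL.FB.FieldRoot
import Fermat.Agent.MUL.Lib.BadRed.PeuD.Rat

section MergeWrap_Lib_FFL_FB_FieldMono -- from Lib/FFL/FB/FieldMono.lean

set_option autoImplicit false
set_option linter.unusedSectionVars false
set_option linter.unusedVariables false

namespace Fermat.Agent.FFL.FB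

open Fermat.Agent.FFL Polynomial

local notation "Kb" => AlgebraicClosure ℚ
local notation "GK" => (AlgebraicClosure ℚ ≃ₐ[ℚ] AlgebraicClosure ℚ)

variable {p : ℕ} {P : ValuationSubring Kb}

/-! ### Sums of terms with pairwise distinct valuations -/

/-- In a sum of terms whose nonzero members have pairwise distinct valuations, every term is
dominated by the sum, and the valuation of the sum is attained. -/
theorem fm_val_sum_aux {K : Type*} [Field K] {Γ₀ : Type*} [LinearOrderedCommGroupWithZero Γ₀]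
    (v : Valuation K Γ₀) {ι : Type*} (a : ι → K) (s : Finset ι)
    (hd : ∀ i ∈ s, ∀ j ∈ s, i ≠ j → a i ≠ 0 → a j ≠ 0 → v (a i) ≠ v (a j)) :
    (∀ i ∈ s, v (a i) ≤ v (∑ j ∈ s, a j)) ∧
      ((∑ j ∈ s, a j) = 0 ∨ ∃ i ∈ s, a i ≠ 0 ∧ v (∑ j ∈ s, a j) = v (a i)) := by
  classical
  induction s using Finset.induction_on with
  | empty => exact ⟨fun i hi => absurd hi (Finset.notMem_empty i), Or.inl Finset.sum_empty⟩
  | insert k s hk ih =>
    have hd' : ∀ i ∈ s, ∀ j ∈ s, i ≠ j → a i ≠ 0 → a j ≠ 0 → v (a i) ≠ v (a j) :=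
      fun i hi j hj => hd i (Finset.mem_insert_of_mem hi) j (Finset.mem_insert_of_mem hj)
    obtain ⟨ih1, ih2⟩ := ih hd'
    rw [Finset.sum_insert hk]
    by_cases hak : a k = 0
    · rw [hak, zero_add]
      refine ⟨fun i hi => ?_, ?_⟩
      · rcases Finset.mem_insert.1 hi with rfl | hi
        · rw [hak, map_zero]; exact zero_le
        · exact ih1 i hi
      · rcases ih2 with h | ⟨i, hi, hai, hv⟩
        · exact Or.inl h
        · exact Or.inr ⟨i, Finset.mem_insert_of_mem hi, hai, hv⟩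
    · rcases ih2 with h | ⟨i0, hi0, hai0, hv⟩
      · rw [h, add_zero]
        refine ⟨fun i hi => ?_, Or.inr ⟨k, Finset.mem_insert_self k s, hak, rfl⟩⟩
        rcases Finset.mem_insert.1 hi with rfl | hi
        · exact le_rfl
        · have := ih1 i hi
          rw [h, map_zero] at this
          exact this.trans zero_le
      · have hki0 : k ≠ i0 := fun h => hk (h ▸ hi0)
        have hne : v (a k) ≠ v (∑ j ∈ s, a j) := by
          rw [hv]
          exact hd k (Finset.mem_insert_self k s) i0 (Finset.mem_insert_of_mem hi0) hki0 hak hai0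
        have hmax := v.map_add_of_distinct_val hne
        refine ⟨fun i hi => ?_, Or.inr ?_⟩
        · rw [hmax]
          rcases Finset.mem_insert.1 hi with rfl | hi
          · exact le_max_left _ _
          · exact (ih1 i hi).trans (le_max_right _ _)
        · rcases le_total (v (a k)) (v (∑ j ∈ s, a j)) with hle | hle
          · exact ⟨i0, Finset.mem_insert_of_mem hi0, hai0, by rw [hmax, max_eq_right hle, hv]⟩
          · exact ⟨k, Finset.mem_insert_self k s, hak, by rw [hmax, max_eq_left hle]⟩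

/-! ### The value group of the base -/

/-- Rank one: every nonzero element divides a power of a given nonunit. -/
theorem fm_exists_pow_div (hp : p.Prime) (hP : P.LiesOverPrime p) {π0 : Kb}
    (hπ0m : π0 ∈ P.nonunits) {r : Kb} (hr0 : r ≠ 0) : ∃ M : ℕ, π0 ^ M / r ∈ P := by
  obtain ⟨m, hm⟩ := dvdProp hp hP r hr0
  obtain ⟨k, hk⟩ := archProp hp hP π0 hπ0m
  refine ⟨k * m, ?_⟩
  have hp0 : (p : Kb) ≠ 0 := ar_p_ne_zero hp
  have h : π0 ^ (k * m) / r = (π0 ^ k / p) ^ m * ((p : Kb) ^ m / r) := by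
    have hpm : (p : Kb) ^ m ≠ 0 := pow_ne_zero _ hp0
    rw [div_pow, ← pow_mul]
    field_simp
  rw [h]
  exact P.mul_mem _ _ (pow_mem hk m) hm

theorem fm_val_eq_one {r : Kb} (hrP : r ∈ P) (hu : r ∉ P.nonunits) : P.valuation r = 1 := by
  rw [ValuationSubring.mem_nonunits_iff, not_lt] at hu
  exact le_antisymm ((P.valuation_le_one_iff r).2 hrP) hu

theorem fm_val_eq_pow_aux (Γ0 : Subgroup GK) {π0 : Kb} (hπ0 : π0 ≠ 0)
    (hπ0fix : ∀ σ ∈ Γ0, σ π0 = π0)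
    (hunif : ∀ x ∈ P.nonunits, (∀ σ ∈ Γ0, σ x = x) → x / π0 ∈ P) :
    ∀ (M : ℕ) (r : Kb), r ≠ 0 → r ∈ P → (∀ σ ∈ Γ0, σ r = r) → π0 ^ M / r ∈ P →
      ∃ n : ℕ, P.valuation r = P.valuation π0 ^ n := by
  intro M
  induction M with
  | zero =>
    intro r hr0 hrP hrfix h
    by_cases hu : r ∈ P.nonunits
    · exfalso
      rw [ValuationSubring.mem_nonunits_iff] at hu
      have h2 := (P.valuation_le_one_iff _).2 h
      rw [pow_zero, map_div₀, map_one,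
        div_le_iff₀ (zero_lt_iff.2 ((Valuation.ne_zero_iff _).2 hr0)), one_mul] at h2
      exact absurd hu (not_lt.2 h2)
    · exact ⟨0, by rw [pow_zero]; exact fm_val_eq_one hrP hu⟩
  | succ M ih =>
    intro r hr0 hrP hrfix h
    by_cases hu : r ∈ P.nonunits
    · have h1 := hunif r hu hrfix
      obtain ⟨n, hn⟩ := ih (r / π0) (div_ne_zero hr0 hπ0) h1
        (fun σ hσ => by rw [map_div₀, hrfix σ hσ, hπ0fix σ hσ]) (by
          have : π0 ^ M / (r / π0) = π0 ^ (M + 1) / r := by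
            field_simp
            ring
          rwa [this])
      refine ⟨n + 1, ?_⟩
      rw [pow_succ, ← hn, map_div₀, div_mul_cancel₀ _ ((Valuation.ne_zero_iff _).2 hπ0)]
    · exact ⟨0, by rw [pow_zero]; exact fm_val_eq_one hrP hu⟩

/-- The valuation of a nonzero `Γ0`-fixed element of `P` is a power of the valuation of the
uniformiser `π0`. -/
theorem fm_val_eq_pow (hp : p.Prime) (hP : P.LiesOverPrime p) (Γ0 : Subgroup GK) {π0 : Kb}
    (hπ0 : π0 ≠ 0) (hπ0m : π0 ∈ P.nonunits) (hπ0fix : ∀ σ ∈ Γ0, σ π0 = π0)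
    (hunif : ∀ x ∈ P.nonunits, (∀ σ ∈ Γ0, σ x = x) → x / π0 ∈ P)
    {r : Kb} (hr0 : r ≠ 0) (hrP : r ∈ P) (hrfix : ∀ σ ∈ Γ0, σ r = r) :
    ∃ n : ℕ, P.valuation r = P.valuation π0 ^ n := by
  obtain ⟨M, hM⟩ := fm_exists_pow_div hp hP hπ0m hr0
  exact fm_val_eq_pow_aux Γ0 hπ0 hπ0fix hunif M r hr0 hrP hrfix hM

/-- Mapping by `σ` a product `∏ (X - y)` over a `σ`-stable finite set. -/
theorem fm_prod_map_eq (σ : GK) (T : Finset Kb) (hT : ∀ y ∈ T, σ y ∈ T)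
    (hT' : ∀ y ∈ T, ∃ z ∈ T, σ z = y) :
    (∏ y ∈ T, (X - C y)).map ((σ : Kb ≃ₐ[ℚ] Kb) : Kb →+* Kb) = ∏ y ∈ T, (X - C y) := by
  rw [Polynomial.map_prod]
  simp only [Polynomial.map_sub, Polynomial.map_X, Polynomial.map_C]
  refine Finset.prod_bij (fun y _ => σ y) hT (fun y _ y' _ h => σ.injective h) ?_
    (fun y _ => rfl)
  intro y hy
  obtain ⟨z, hz, hzy⟩ := hT' y hy
  exact ⟨z, hz, hzy⟩

/-! ### The setting -/

/-- The setting of **F2**: `Γ ≤ Γ0` subgroups of the decomposition group of `P`, of finite index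
`d`; `π0` a `Γ0`-fixed uniformiser of `intRing P Γ0` (`hunif`); `ϖ` fixed by `Γ` with
`v(ϖ ^ d) = v(π0)`. -/
structure MonoSetting (p : ℕ) (P : ValuationSubring Kb) (Γ0 Γ : Subgroup GK) (d : ℕ)
    (π0 ϖ : Kb) : Prop where
  hp : p.Prime
  hP : P.LiesOverPrime p
  hΓ0 : Γ0 ≤ P.decompositionSubgroup ℚ
  hΓ : Γ ≤ Γ0
  hd : Γ.relIndex Γ0 = d
  hd0 : d ≠ 0
  hπ0 : π0 ≠ 0
  hπ0m : π0 ∈ P.nonunits
  hπ0fix : ∀ σ ∈ Γ0, σ π0 = π0
  hunif : ∀ x ∈ P.nonunits, (∀ σ ∈ Γ0, σ x = x) → x / π0 ∈ P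
  hϖfix : ∀ σ ∈ Γ, σ ϖ = ϖ
  hϖ1 : ϖ ^ d / π0 ∈ P
  hϖ2 : ϖ ^ d / π0 ∉ P.nonunits

namespace MonoSetting

variable {Γ0 Γ : Subgroup GK} {d : ℕ} {π0 ϖ : Kb} (S : MonoSetting p P Γ0 Γ d π0 ϖ)
include S

theorem val_pow : P.valuation ϖ ^ d = P.valuation π0 := by
  have h := fm_val_eq_one S.hϖ1 S.hϖ2
  rw [map_div₀, map_pow] at h
  exact (div_eq_one_iff_eq ((Valuation.ne_zero_iff _).2 S.hπ0)).1 h

theorem ϖ_ne_zero : ϖ ≠ 0 := by
  intro h
  have := S.val_pow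
  rw [h, map_zero, zero_pow S.hd0] at this
  exact (Valuation.ne_zero_iff _).2 S.hπ0 this.symm

theorem val_ϖ_ne_zero : P.valuation ϖ ≠ 0 := (Valuation.ne_zero_iff _).2 S.ϖ_ne_zero

theorem val_ϖ_lt : P.valuation ϖ < 1 := by
  by_contra h
  rw [not_lt] at h
  have h1 : 1 ≤ P.valuation ϖ ^ d := one_le_pow₀ h
  rw [S.val_pow] at h1
  exact absurd ((ValuationSubring.mem_nonunits_iff P).1 S.hπ0m) (not_lt.2 h1)

theorem ϖ_mem : ϖ ∈ P := (P.valuation_le_one_iff _).1 S.val_ϖ_lt.le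

theorem ϖ_mem_nonunits : ϖ ∈ P.nonunits := (ValuationSubring.mem_nonunits_iff P).2 S.val_ϖ_lt

theorem val_ne_of_lt {i j : ℕ} (hij : i < j) (hj : j < d) {a b : Kb} (ha0 : a ≠ 0) (hb0 : b ≠ 0)
    (hafix : ∀ σ ∈ Γ0, σ a = a) (hbfix : ∀ σ ∈ Γ0, σ b = b) :
    P.valuation (a * ϖ ^ i) ≠ P.valuation (b * ϖ ^ j) := by
  intro h
  rw [map_mul, map_mul, map_pow, map_pow] at h
  have hw0 : P.valuation ϖ ≠ 0 := S.val_ϖ_ne_zero
  have hw1 : P.valuation ϖ ≠ 1 := S.val_ϖ_lt.ne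
  have hinj := pow_right_injective₀ (zero_lt_iff.2 hw0) hw1
  have hva0 : P.valuation a ≠ 0 := (Valuation.ne_zero_iff _).2 ha0
  have hvb0 : P.valuation b ≠ 0 := (Valuation.ne_zero_iff _).2 hb0
  rcases P.mem_or_inv_mem (a / b) with hab | hab
  · obtain ⟨n, hn⟩ := fm_val_eq_pow S.hp S.hP Γ0 S.hπ0 S.hπ0m S.hπ0fix S.hunif
      (div_ne_zero ha0 hb0) hab (fun σ hσ => by rw [map_div₀, hafix σ hσ, hbfix σ hσ])
    rw [map_div₀, div_eq_iff hvb0, ← S.val_pow, ← pow_mul] at hn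
    rw [hn] at h
    have h2 : P.valuation ϖ ^ (d * n + i) = P.valuation ϖ ^ j := by
      apply mul_right_cancel₀ hvb0
      rw [pow_add, mul_right_comm, h, mul_comm]
    have h3 : d * n + i = j := hinj h2
    rcases Nat.eq_zero_or_pos n with hn0 | hn0
    · subst hn0; omega
    · have : d ≤ d * n := Nat.le_mul_of_pos_right d hn0
      omega
  · rw [inv_div] at hab
    obtain ⟨n, hn⟩ := fm_val_eq_pow S.hp S.hP Γ0 S.hπ0 S.hπ0m S.hπ0fix S.hunif
      (div_ne_zero hb0 ha0) hab (fun σ hσ => by rw [map_div₀, hafix σ hσ, hbfix σ hσ])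
    rw [map_div₀, div_eq_iff hva0, ← S.val_pow, ← pow_mul] at hn
    rw [hn] at h
    have h2 : P.valuation ϖ ^ i = P.valuation ϖ ^ (d * n + j) := by
      apply mul_left_cancel₀ hva0
      rw [h, pow_add, mul_right_comm, mul_comm (P.valuation a), mul_right_comm]
    have h3 : i = d * n + j := hinj h2
    omega

/-- **(O)**, distinctness: the valuations of `a ϖ^i`, `b ϖ^j` (`a, b ≠ 0` fixed by `Γ0`,
`i ≠ j < d`) are distinct. -/
theorem val_ne {i j : ℕ} (hi : i < d) (hj : j < d) (hij : i ≠ j) {a b : Kb} (ha0 : a ≠ 0)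
    (hb0 : b ≠ 0) (hafix : ∀ σ ∈ Γ0, σ a = a) (hbfix : ∀ σ ∈ Γ0, σ b = b) :
    P.valuation (a * ϖ ^ i) ≠ P.valuation (b * ϖ ^ j) := by
  rcases Nat.lt_or_gt_of_ne hij with h | h
  · exact S.val_ne_of_lt h hj ha0 hb0 hafix hbfix
  · exact fun h' => S.val_ne_of_lt h hi hb0 ha0 hbfix hafix h'.symm

/-- **(O)**, orthogonality (`mono_indep`): `v(∑ r_i ϖ^i) = min_i v(r_i ϖ^i)` for `Γ0`-fixed
`r_i`; here: every term is dominated by the sum. -/
theorem val_term_le (r : Fin d → Kb) (hr : ∀ i, ∀ σ ∈ Γ0, σ (r i) = r i) (i : Fin d) :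
    P.valuation (r i * ϖ ^ (i : ℕ)) ≤ P.valuation (∑ j, r j * ϖ ^ (j : ℕ)) := by
  refine (fm_val_sum_aux P.valuation (fun j : Fin d => r j * ϖ ^ (j : ℕ)) Finset.univ ?_).1 i
    (Finset.mem_univ i)
  intro i _ j _ hij hai haj
  have hri : r i ≠ 0 := left_ne_zero_of_mul hai
  have hrj : r j ≠ 0 := left_ne_zero_of_mul haj
  exact S.val_ne i.2 j.2 (fun h => hij (Fin.ext h)) hri hrj (hr i) (hr j)

/-- Independence: a vanishing combination of `1, ϖ, …, ϖ^(d-1)` with `Γ0`-fixed coefficients is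
trivial. -/
theorem coeff_eq_zero (r : Fin d → Kb) (hr : ∀ i, ∀ σ ∈ Γ0, σ (r i) = r i)
    (h : ∑ j, r j * ϖ ^ (j : ℕ) = 0) (i : Fin d) : r i = 0 := by
  have h1 := S.val_term_le r hr i
  rw [h, map_zero, le_zero_iff, Valuation.zero_iff] at h1
  rcases mul_eq_zero.1 h1 with h2 | h2
  · exact h2
  · exact absurd h2 (pow_ne_zero _ S.ϖ_ne_zero)

/-- Integrality: if `∑ r_i ϖ^i ∈ P` with `Γ0`-fixed `r_i`, then every `r_i ∈ P`. -/
theorem coeff_mem (r : Fin d → Kb) (hr : ∀ i, ∀ σ ∈ Γ0, σ (r i) = r i)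
    (h : ∑ j, r j * ϖ ^ (j : ℕ) ∈ P) (i : Fin d) : r i ∈ P := by
  have h1 := (S.val_term_le r hr i).trans ((P.valuation_le_one_iff _).2 h)
  by_contra hri
  have hri0 : r i ≠ 0 := fun h0 => hri (h0 ▸ P.zero_mem)
  have hv0 : P.valuation (r i) ≠ 0 := (Valuation.ne_zero_iff _).2 hri0
  have hgt : 1 < P.valuation (r i) := by
    rw [← not_le, P.valuation_le_one_iff]; exact hri
  have hinv : (r i)⁻¹ ∈ P.nonunits := by
    rw [ValuationSubring.mem_nonunits_iff, map_inv₀]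
    exact inv_lt_one_of_one_lt₀ hgt
  have h2 := S.hunif _ hinv (fun σ hσ => by rw [map_inv₀, hr i σ hσ])
  have h3 := (P.valuation_le_one_iff _).2 h2
  rw [map_div₀, map_inv₀, div_le_iff₀ (zero_lt_iff.2 ((Valuation.ne_zero_iff _).2 S.hπ0)),
    one_mul, ← S.val_pow] at h3
  have h4 : P.valuation ϖ ^ (i : ℕ) ≤ (P.valuation (r i))⁻¹ := by
    rw [map_mul, map_pow] at h1
    rw [le_inv_comm₀ (pow_pos (zero_lt_iff.2 S.val_ϖ_ne_zero) _) (zero_lt_iff.2 hv0)]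
    have h6 : P.valuation (r i) * P.valuation ϖ ^ (i : ℕ) ≤
        (P.valuation ϖ ^ (i : ℕ))⁻¹ * P.valuation ϖ ^ (i : ℕ) := by
      rw [inv_mul_cancel₀ (pow_ne_zero _ S.val_ϖ_ne_zero)]
      exact h1
    exact le_of_mul_le_mul_right h6 (pow_pos (zero_lt_iff.2 S.val_ϖ_ne_zero) _)
  have h5 : P.valuation ϖ ^ d < P.valuation ϖ ^ (i : ℕ) :=
    pow_lt_pow_right_of_lt_one₀ (zero_lt_iff.2 S.val_ϖ_ne_zero) S.val_ϖ_lt i.2
  exact absurd (h4.trans h3) (not_le.2 h5)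

/-! ### The orbit of `ϖ` and its stabiliser -/

theorem subgroupOf_le_stab : Γ.subgroupOf Γ0 ≤ MulAction.stabilizer ↥Γ0 ϖ := by
  intro σ hσ
  rw [MulAction.mem_stabilizer_iff]
  exact S.hϖfix σ.1 (Subgroup.mem_subgroupOf.1 hσ)

theorem index_stab_dvd : (MulAction.stabilizer ↥Γ0 ϖ).index ∣ d := by
  have := Subgroup.index_dvd_of_le S.subgroupOf_le_stab
  rwa [show (Γ.subgroupOf Γ0).index = d from S.hd] at this

theorem orbit_finite : (MulAction.orbit ↥Γ0 ϖ).Finite := by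
  apply Set.finite_of_ncard_ne_zero
  rw [← MulAction.index_stabilizer]
  intro h
  have := S.index_stab_dvd
  rw [h, zero_dvd_iff] at this
  exact S.hd0 this

/-- The orbit of `ϖ` under `Γ0`, as a finset. -/
noncomputable def orbit : Finset Kb := S.orbit_finite.toFinset

theorem mem_orbit {y : Kb} : y ∈ S.orbit ↔ ∃ σ ∈ Γ0, σ ϖ = y := by
  rw [orbit, Set.Finite.mem_toFinset, MulAction.mem_orbit_iff]
  constructor
  · rintro ⟨σ, rfl⟩
    exact ⟨σ.1, σ.2, rfl⟩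
  · rintro ⟨σ, hσ, rfl⟩
    exact ⟨⟨σ, hσ⟩, rfl⟩

theorem card_orbit_dvd : S.orbit.card ∣ d := by
  rw [orbit, ← Set.ncard_eq_toFinset_card _ S.orbit_finite, ← MulAction.index_stabilizer]
  exact S.index_stab_dvd

theorem orbit_smul {σ : GK} (hσ : σ ∈ Γ0) {y : Kb} (hy : y ∈ S.orbit) : σ y ∈ S.orbit := by
  obtain ⟨τ, hτ, rfl⟩ := S.mem_orbit.1 hy
  exact S.mem_orbit.2 ⟨σ * τ, mul_mem hσ hτ, rfl⟩

theorem orbit_surj {σ : GK} (hσ : σ ∈ Γ0) {y : Kb} (hy : y ∈ S.orbit) :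
    ∃ z ∈ S.orbit, σ z = y := by
  refine ⟨σ⁻¹ y, S.orbit_smul (inv_mem hσ) hy, ?_⟩
  rw [← AlgEquiv.mul_apply, mul_inv_cancel, AlgEquiv.one_apply]

theorem self_mem_orbit : ϖ ∈ S.orbit := S.mem_orbit.2 ⟨1, one_mem _, rfl⟩

/-- The orbit of `ϖ` under `Γ0` has exactly `d` elements. -/
theorem card_orbit : S.orbit.card = d := by
  refine le_antisymm (Nat.le_of_dvd (Nat.pos_of_ne_zero S.hd0) S.card_orbit_dvd) ?_
  by_contra hlt
  rw [not_le] at hlt
  set f : Kb[X] := ∏ y ∈ S.orbit, (X - C y) with hf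
  have hfdeg : f.natDegree = S.orbit.card := by
    exact Polynomial.natDegree_finsetProd_X_sub_C_eq_card S.orbit (fun y : Kb => y)
  have hfmonic : f.Monic :=
    Polynomial.monic_prod_of_monic _ _ (fun y _ => Polynomial.monic_X_sub_C y)
  have hfix : ∀ i, ∀ σ ∈ Γ0, σ (f.coeff i) = f.coeff i := by
    intro i σ hσ
    have h1 := fm_prod_map_eq σ S.orbit (fun y hy => S.orbit_smul hσ hy)
      (fun y hy => S.orbit_surj hσ hy)
    have h2 := congrArg (fun q => q.coeff i) h1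
    simp only [Polynomial.coeff_map] at h2
    exact h2
  have heval : f.eval ϖ = 0 := by
    rw [hf, Polynomial.eval_prod]
    exact Finset.prod_eq_zero S.self_mem_orbit (by simp)
  have hsum : ∑ i : Fin d, f.coeff i * ϖ ^ (i : ℕ) = 0 := by
    rw [Fin.sum_univ_eq_sum_range (fun i => f.coeff i * ϖ ^ i) d,
      ← Polynomial.eval_eq_sum_range' (by rw [hfdeg]; exact hlt), heval]
  have h0 := S.coeff_eq_zero (fun i : Fin d => f.coeff i) (fun i => hfix i) hsum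
    ⟨S.orbit.card, hlt⟩
  have h1 : f.coeff S.orbit.card = 1 := by
    rw [← hfdeg]
    exact hfmonic.coeff_natDegree
  simp only at h0
  rw [h1] at h0
  exact one_ne_zero h0

/-- **`mono_stab`**: `Γ` is exactly the stabiliser of `ϖ` in `Γ0`. -/
theorem stab {σ : GK} (hσ : σ ∈ Γ0) (h : σ ϖ = ϖ) : σ ∈ Γ := by
  have hle := S.subgroupOf_le_stab
  have hidx : (MulAction.stabilizer ↥Γ0 ϖ).index = d := by
    rw [MulAction.index_stabilizer, Set.ncard_eq_toFinset_card _ S.orbit_finite]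
    exact S.card_orbit
  have h1 := Subgroup.relIndex_mul_index hle
  rw [hidx, show (Γ.subgroupOf Γ0).index = d from S.hd] at h1
  have h2 : (Γ.subgroupOf Γ0).relIndex (MulAction.stabilizer ↥Γ0 ϖ) = 1 :=
    Nat.eq_of_mul_eq_mul_right (Nat.pos_of_ne_zero S.hd0) (h1.trans (one_mul d).symm)
  have h3 := Subgroup.relIndex_eq_one.1 h2
  have h4 : (⟨σ, hσ⟩ : ↥Γ0) ∈ MulAction.stabilizer ↥Γ0 ϖ := MulAction.mem_stabilizer_iff.2 h
  exact Subgroup.mem_subgroupOf.1 (h3 h4)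

/-! ### (V): the Vandermonde trick -/

/-- **(V)**: every `Γ`-fixed `x` is a combination of `1, ϖ, …, ϖ^(d-1)` with `Γ0`-fixed
coefficients (Lagrange interpolation of `σ ϖ ↦ σ x` on the orbit of `ϖ`). -/
theorem exists_coeffs {x : Kb} (hx : ∀ σ ∈ Γ, σ x = x) :
    ∃ r : Fin d → Kb, (∀ i, ∀ σ ∈ Γ0, σ (r i) = r i) ∧ x = ∑ i, r i * ϖ ^ (i : ℕ) := by
  classical
  let val : Kb → Kb := fun y => if h : ∃ σ ∈ Γ0, σ ϖ = y then (Classical.choose h) x else 0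
  have hval : ∀ σ ∈ Γ0, val (σ ϖ) = σ x := by
    intro σ hσ
    have h : ∃ τ ∈ Γ0, τ ϖ = σ ϖ := ⟨σ, hσ, rfl⟩
    have hv : val (σ ϖ) = (Classical.choose h) x := dif_pos h
    obtain ⟨hτ, hτϖ⟩ := Classical.choose_spec h
    rw [hv]
    have h1 : (σ⁻¹ * Classical.choose h) ϖ = ϖ := by
      rw [AlgEquiv.mul_apply, hτϖ, ← AlgEquiv.mul_apply, inv_mul_cancel, AlgEquiv.one_apply]
    have h2 := hx _ (S.stab (mul_mem (inv_mem hσ) hτ) h1)
    rw [AlgEquiv.mul_apply] at h2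
    have h3 := congrArg σ h2
    rwa [← AlgEquiv.mul_apply, mul_inv_cancel, AlgEquiv.one_apply] at h3
  set g : Kb[X] := Lagrange.interpolate S.orbit id val with hg
  have hinj : Set.InjOn (id : Kb → Kb) S.orbit := Function.injective_id.injOn
  have hdeg : g.degree < S.orbit.card := Lagrange.degree_interpolate_lt val hinj
  have hgeval : ∀ y ∈ S.orbit, g.eval y = val y :=
    fun y hy => Lagrange.eval_interpolate_at_node val hinj hy
  have hmap : ∀ σ ∈ Γ0, g.map ((σ : Kb ≃ₐ[ℚ] Kb) : Kb →+* Kb) = g := by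
    intro σ hσ
    refine Polynomial.eq_of_degrees_lt_of_eval_finset_eq S.orbit
      (lt_of_le_of_lt Polynomial.degree_map_le hdeg) hdeg ?_
    intro z hz
    obtain ⟨y, hy, rfl⟩ := S.orbit_surj hσ hz
    obtain ⟨τ, hτ, rfl⟩ := S.mem_orbit.1 hy
    have h1 := Polynomial.eval_map_apply (p := g) ((σ : Kb ≃ₐ[ℚ] Kb) : Kb →+* Kb) (τ ϖ)
    have h2 : ((σ : Kb ≃ₐ[ℚ] Kb) : Kb →+* Kb) (τ ϖ) = σ (τ ϖ) := rfl
    rw [h2] at h1
    rw [h1, hgeval _ hy, hval τ hτ, hgeval _ hz]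
    have h3 : σ (τ ϖ) = (σ * τ) ϖ := rfl
    rw [h3, hval _ (mul_mem hσ hτ)]
    rfl
  refine ⟨fun i => g.coeff i, fun i σ hσ => ?_, ?_⟩
  · have h1 := congrArg (fun q => q.coeff (i : ℕ)) (hmap σ hσ)
    simp only [Polynomial.coeff_map] at h1
    exact h1
  · have hnd : g.natDegree < d := by
      by_cases hg0 : g = 0
      · rw [hg0, Polynomial.natDegree_zero]
        exact Nat.pos_of_ne_zero S.hd0
      · rw [Polynomial.natDegree_lt_iff_degree_lt hg0, ← S.card_orbit]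
        exact hdeg
    have h1 : val ϖ = x := by
      have := hval 1 (one_mem _)
      simpa using this
    rw [Fin.sum_univ_eq_sum_range (fun i => g.coeff i * ϖ ^ i) d,
      ← Polynomial.eval_eq_sum_range' hnd, hgeval _ S.self_mem_orbit, h1]

/-! ### The main statements -/

/-- **F2'** (`mono_basis`): every `x ∈ intRing P Γ` is `∑_{i<d} r_i ϖ^i` with unique
`r_i ∈ intRing P Γ0`. -/
theorem basis {x : Kb} (hx : x ∈ intRing P (Γ : Set GK)) :
    ∃! r : Fin d → Kb, (∀ i, r i ∈ intRing P (Γ0 : Set GK)) ∧ x = ∑ i, r i * ϖ ^ (i : ℕ) := by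
  obtain ⟨r, hr, hxr⟩ := S.exists_coeffs hx.2
  refine ⟨r, ⟨fun i => ⟨S.coeff_mem r hr (hxr ▸ hx.1) i, hr i⟩, hxr⟩, ?_⟩
  rintro r' ⟨hr', hxr'⟩
  funext i
  have h0 : ∑ j, (r' j - r j) * ϖ ^ (j : ℕ) = 0 := by
    simp only [sub_mul, Finset.sum_sub_distrib]
    rw [← hxr, ← hxr', sub_self]
  have := S.coeff_eq_zero (fun j => r' j - r j)
    (fun j σ hσ => by rw [map_sub, (hr' j).2 σ hσ, hr j σ hσ]) h0 i
  exact sub_eq_zero.1 this

/-- Elements of `Γ0` preserve `P`. -/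
theorem map_mem {σ : GK} (hσ : σ ∈ Γ0) {x : Kb} (hx : x ∈ P) : σ x ∈ P := by
  rw [← P.valuation_le_one_iff, val_decomp (S.hΓ0 hσ)]
  exact (P.valuation_le_one_iff _).2 hx

/-- **`mono_depth`**: for `g ∈ Γ0` and `x ∈ intRing P Γ`, `g x - x` is divisible by `g ϖ - ϖ`
in `P`. -/
theorem depth {g : GK} (hg : g ∈ Γ0) {x : Kb} (hx : x ∈ intRing P (Γ : Set GK)) :
    ∃ t ∈ P, g x - x = (g ϖ - ϖ) * t := by
  obtain ⟨r, ⟨hr, hxr⟩, -⟩ := S.basis hx
  refine ⟨∑ i : Fin d, r i * ∑ k ∈ Finset.range (i : ℕ), (g ϖ) ^ k * ϖ ^ ((i : ℕ) - 1 - k), ?_, ?_⟩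
  · refine sum_mem (fun i _ => P.mul_mem _ _ (hr i).1 (sum_mem (fun k _ => ?_)))
    exact P.mul_mem _ _ (pow_mem (S.map_mem hg S.ϖ_mem) _) (pow_mem S.ϖ_mem _)
  · rw [hxr, map_sum, ← Finset.sum_sub_distrib, Finset.mul_sum]
    refine Finset.sum_congr rfl (fun i _ => ?_)
    rw [map_mul, map_pow, (hr i).2 g hg, ← mul_sub, ← geom_sum₂_mul (g ϖ) ϖ (i : ℕ)]
    ring

/-- **`mono_unif`**: `ϖ` is a uniformiser of `intRing P Γ`. -/
theorem unif {x : Kb} (hxm : x ∈ P.nonunits) (hx : ∀ σ ∈ Γ, σ x = x) : x / ϖ ∈ P := by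
  have hxP : x ∈ P := (P.valuation_le_one_iff _).1 ((ValuationSubring.mem_nonunits_iff P).1 hxm).le
  obtain ⟨r, ⟨hr, hxr⟩, -⟩ := S.basis ⟨hxP, hx⟩
  have hw0 := S.val_ϖ_ne_zero
  rw [← P.valuation_le_one_iff, map_div₀, div_le_iff₀ (zero_lt_iff.2 hw0), one_mul, hxr]
  refine Valuation.map_sum_le _ (fun i _ => ?_)
  rw [map_mul, map_pow]
  by_cases hi : (i : ℕ) = 0
  · rw [hi, pow_zero, mul_one]
    have h1 := S.val_term_le r (fun j => (hr j).2) i
    rw [hi, pow_zero, mul_one, ← hxr] at h1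
    have h2 : r i ∈ P.nonunits :=
      (ValuationSubring.mem_nonunits_iff P).2
        (lt_of_le_of_lt h1 ((ValuationSubring.mem_nonunits_iff P).1 hxm))
    have h3 := (P.valuation_le_one_iff _).2 (S.hunif _ h2 (hr i).2)
    rw [map_div₀, div_le_iff₀ (zero_lt_iff.2 ((Valuation.ne_zero_iff _).2 S.hπ0)), one_mul,
      ← S.val_pow] at h3
    refine h3.trans ?_
    exact pow_le_of_le_one zero_le S.val_ϖ_lt.le S.hd0
  · calc P.valuation (r i) * P.valuation ϖ ^ (i : ℕ) ≤ 1 * P.valuation ϖ ^ (i : ℕ) :=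
          mul_le_mul_left ((P.valuation_le_one_iff _).2 (hr i).1) _
      _ = P.valuation ϖ ^ (i : ℕ) := one_mul _
      _ ≤ P.valuation ϖ := pow_le_of_le_one zero_le S.val_ϖ_lt.le hi

end MonoSetting

end Fermat.Agent.FFL.FB
end MergeWrap_Lib_FFL_FB_FieldMono
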