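import Mathlib
import Fermat.Agent.MUL.Lib.FFL.FB.UnitDefs
import Fermat.Agent.MUL.Lib.FFL.FB.FieldTeich
import Fermat.Agent.MUL.Lib.FFL.Unr
import Fermat.Agent.MUL.Lib.FFL.FB.FieldMono
import Fermat.Agent.MUL.Lib.BadRed.Graph.NodeMultiWire

section MergeWrap_Lib_FFL_FB_Binom -- from Lib/FFL/FB/Binom.lean

set_option autoImplicit false

namespace Fermat.Agent.FFL.FB

open Polynomial

/-- `(1 + X)^p = 1 + p X + p X² T + X^p` in `ℤ[X]`, for a prime `p`. -/
theorem fb_exists_binom_poly (p : ℕ) (hp : p.Prime) :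
    ∃ T : ℤ[X], (1 + X : ℤ[X]) ^ p = 1 + C (p : ℤ) * X + C (p : ℤ) * X ^ 2 * T + X ^ p := by
  obtain ⟨r, hr⟩ := exists_add_pow_prime_eq hp (1 : ℤ[X]) X
  have hp1 : p ≠ 1 := hp.ne_one
  have h1 : (r.coeff 0 : ℤ) = 1 := by
    have h := congrArg (fun q : ℤ[X] => q.coeff 1) hr
    simp only [coeff_one_add_X_pow, one_pow, coeff_add, coeff_X_pow] at h
    have h2 : ((p : ℤ[X]) * 1 * X * r).coeff 1 = (p : ℤ) * r.coeff 0 := by
      have : (p : ℤ[X]) * 1 * X * r = C (p : ℤ) * (r * X) := by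
        rw [mul_one, mul_assoc, mul_comm X r]; simp
      rw [this, coeff_C_mul, coeff_mul_X]
    rw [h2] at h
    have h3 : ((1 : ℤ[X]).coeff 1 : ℤ) = 0 := by
      rw [coeff_one]; simp
    rw [h3] at h
    simp only [Nat.choose_one_right, zero_add] at h
    have h4 : (if 1 = p then (1 : ℤ) else 0) = 0 := if_neg (fun h => hp1 h.symm)
    rw [h4, zero_add] at h
    have hp0 : (p : ℤ) ≠ 0 := by exact_mod_cast hp.ne_zero
    have : (p : ℤ) * 1 = (p : ℤ) * r.coeff 0 := by rw [mul_one]; exact_mod_cast h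
    exact (mul_left_cancel₀ hp0 this).symm
  refine ⟨r.divX, ?_⟩
  have hr2 : r = r.divX * X + C (r.coeff 0) := (divX_mul_X_add r).symm
  rw [h1] at hr2
  rw [hr, one_pow]
  have hC : (p : ℤ[X]) = C (p : ℤ) := by simp
  rw [hC]
  conv_lhs => rw [hr2]
  simp only [map_one]
  ring

/-- The binomial identity in every commutative ring. -/
theorem fb_exists_binom.{u} (p : ℕ) (hp : p.Prime) :
    ∃ T : ℤ[X], ∀ (A : Type u) [CommRing A] (z : A),
      (1 + z) ^ p = 1 + (p : A) * z + (p : A) * z ^ 2 * (aeval z T) + z ^ p := by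
  obtain ⟨T, hT⟩ := fb_exists_binom_poly p hp
  refine ⟨T, fun A _ z => ?_⟩
  have h := congrArg (aeval z) hT
  simpa using h

end Fermat.Agent.FFL.FB
end MergeWrap_Lib_FFL_FB_Binom

section MergeWrap_Lib_FFL_FB_Filt -- from Lib/FFL/FB/Filt.lean

set_option autoImplicit false

namespace Fermat.Agent.FFL.FB

open Polynomial

local notation "Kb" => AlgebraicClosure ℚ

section Cg

variable {A : Type*} [CommRing A] [Algebra Kb A]

/-- `u ∈ c • B`. -/
def FBCg (B : Subring A) (c : Kb) (u : A) : Prop := ∃ r ∈ B, u = algebraMap Kb A c * r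

variable {P : ValuationSubring Kb} {B : Subring A}

theorem FBCg.zero (c : Kb) : FBCg B c (0 : A) := ⟨0, B.zero_mem, by simp⟩

theorem FBCg.add {c : Kb} {u v : A} (hu : FBCg B c u) (hv : FBCg B c v) : FBCg B c (u + v) := by
  obtain ⟨r, hr, rfl⟩ := hu
  obtain ⟨s, hs, rfl⟩ := hv
  exact ⟨r + s, B.add_mem hr hs, by ring⟩

theorem FBCg.neg {c : Kb} {u : A} (hu : FBCg B c u) : FBCg B c (-u) := by
  obtain ⟨r, hr, rfl⟩ := hu
  exact ⟨-r, B.neg_mem hr, by ring⟩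

theorem FBCg.sub {c : Kb} {u v : A} (hu : FBCg B c u) (hv : FBCg B c v) : FBCg B c (u - v) := by
  obtain ⟨r, hr, rfl⟩ := hu
  obtain ⟨s, hs, rfl⟩ := hv
  exact ⟨r - s, B.sub_mem hr hs, by ring⟩

theorem FBCg.mul_right {c : Kb} {u t : A} (hu : FBCg B c u) (ht : t ∈ B) : FBCg B c (u * t) := by
  obtain ⟨r, hr, rfl⟩ := hu
  exact ⟨r * t, B.mul_mem hr ht, by ring⟩

theorem FBCg.mul_left {c : Kb} {u t : A} (hu : FBCg B c u) (ht : t ∈ B) : FBCg B c (t * u) := by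
  rw [mul_comm]; exact hu.mul_right ht

theorem FBCg.mul {c c' : Kb} {u v : A} (hu : FBCg B c u) (hv : FBCg B c' v) :
    FBCg B (c * c') (u * v) := by
  obtain ⟨r, hr, rfl⟩ := hu
  obtain ⟨s, hs, rfl⟩ := hv
  exact ⟨r * s, B.mul_mem hr hs, by rw [map_mul]; ring⟩

theorem FBCg.of_mem {u : A} (hu : u ∈ B) : FBCg B 1 u := ⟨u, hu, by simp⟩

theorem FBCg.congr {c c' : Kb} {u : A} (hu : FBCg B c u) (h : c = c') : FBCg B c' u := h ▸ hu

/-- `B` is stable under multiplication by the elements of `P`. -/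
def FBStable (P : ValuationSubring Kb) (B : Subring A) : Prop :=
  ∀ a ∈ P, ∀ u ∈ B, algebraMap Kb A a * u ∈ B

theorem FBCg.mono (hB : FBStable P B) {c a : Kb} (ha : a ∈ P) {u : A} (hu : FBCg B (c * a) u) :
    FBCg B c u := by
  obtain ⟨r, hr, rfl⟩ := hu
  exact ⟨algebraMap Kb A a * r, hB a ha r hr, by rw [map_mul]; ring⟩

theorem FBCg.mono' (hB : FBStable P B) {c c' a : Kb} (ha : a ∈ P) (h : c' = c * a) {u : A}
    (hu : FBCg B c' u) : FBCg B c u := FBCg.mono hB ha (h ▸ hu)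

theorem FBCg.mem (hB : FBStable P B) {c : Kb} (hc : c ∈ P) {u : A} (hu : FBCg B c u) :
    u ∈ B := by
  obtain ⟨r, hr, rfl⟩ := hu
  exact hB c hc r hr

theorem FBCg.smul {c : Kb} (a : Kb) {u : A} (hu : FBCg B c u) :
    FBCg B (a * c) (algebraMap Kb A a * u) := by
  obtain ⟨r, hr, rfl⟩ := hu
  exact ⟨r, hr, by rw [map_mul]; ring⟩

theorem FBCg.of_smul {c a : Kb} (ha : a ≠ 0) {u : A}
    (hu : FBCg B (a * c) (algebraMap Kb A a * u)) : FBCg B c u := by
  obtain ⟨r, hr, h⟩ := hu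
  refine ⟨r, hr, ?_⟩
  have hinv : algebraMap Kb A a⁻¹ * algebraMap Kb A a = 1 := by
    rw [← map_mul, inv_mul_cancel₀ ha, map_one]
  calc u = (algebraMap Kb A a⁻¹ * algebraMap Kb A a) * u := by rw [hinv, one_mul]
    _ = algebraMap Kb A a⁻¹ * (algebraMap Kb A a * u) := by ring
    _ = algebraMap Kb A a⁻¹ * (algebraMap Kb A (a * c) * r) := by rw [h]
    _ = (algebraMap Kb A a⁻¹ * algebraMap Kb A a) * (algebraMap Kb A c * r) := by
        rw [map_mul]; ring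
    _ = algebraMap Kb A c * r := by rw [hinv, one_mul]

theorem FBCg.mul_sub_one {c : Kb} {u v : A} (hu : FBCg B c (u - 1)) (hv : FBCg B c (v - 1))
    (hvB : v ∈ B) : FBCg B c (u * v - 1) := by
  have : u * v - 1 = (u - 1) * v + (v - 1) := by ring
  rw [this]
  exact (hu.mul_right hvB).add hv

theorem FBCg.pow_sub_one {c : Kb} {u : A} (hu : FBCg B c (u - 1)) (huB : u ∈ B) (n : ℕ) :
    FBCg B c (u ^ n - 1) := by
  induction n with
  | zero => simp [FBCg.zero c]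
  | succ n ih =>
    rw [pow_succ]
    exact ih.mul_sub_one hu huB

omit [Algebra Kb A] in
theorem fb_aeval_mem (B : Subring A) {z : A} (hz : z ∈ B) (T : ℤ[X]) : aeval z T ∈ B := by
  induction T using Polynomial.induction_on' with
  | add q r hq hr => rw [map_add]; exact B.add_mem hq hr
  | monomial n a =>
    rw [aeval_monomial]
    exact B.mul_mem (by simpa using B.intCast_mem a) (B.pow_mem hz n)

end Cg

section Newton

variable {A : Type} [CommRing A] [Algebra Kb A] {P : ValuationSubring Kb} {B : Subring A}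
  {p : ℕ}

/-- The scalars of the lifting lemma: `λ, λ^(p-1)/p ∈ ν P`. -/
structure FBScal (P : ValuationSubring Kb) (p : ℕ) (lam nu : Kb) : Prop where
  prime : p.Prime
  nu_mem : nu ∈ P
  lam_eq : ∃ a ∈ P, lam = nu * a
  mu_eq : ∃ a ∈ P, lam ^ (p - 1) = p * nu * a

theorem FBScal.lam_mem {lam nu : Kb} (h : FBScal P p lam nu) : lam ∈ P := by
  obtain ⟨a, ha, rfl⟩ := h.lam_eq
  exact P.mul_mem _ _ h.nu_mem ha

theorem FBScal.p_ne_zero {lam nu : Kb} (h : FBScal P p lam nu) : (p : Kb) ≠ 0 := by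
  exact_mod_cast h.prime.ne_zero

theorem FBScal.lam_pow {lam nu : Kb} (h : FBScal P p lam nu) :
    ∃ a ∈ P, lam ^ p = p * lam * nu * a := by
  obtain ⟨a, ha, h1⟩ := h.mu_eq
  refine ⟨a, ha, ?_⟩
  have hp : p = (p - 1) + 1 := (Nat.sub_add_cancel h.prime.one_le).symm
  calc lam ^ p = lam ^ (p - 1) * lam := by rw [← pow_succ, ← hp]
    _ = p * lam * nu * a := by rw [h1]; ring

/-- Key expansion: for `z ∈ λ ν^n B`, `(1 + z)^p - 1 - p z ∈ p λ ν^(n+1) B`. -/
theorem fb_expand (hB : FBStable P B) {lam nu : Kb} (h : FBScal P p lam nu) (n : ℕ) {z : A}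
    (hz : FBCg B (lam * nu ^ n) z) :
    FBCg B (p * lam * nu ^ (n + 1)) ((1 + z) ^ p - 1 - (p : A) * z) := by
  obtain ⟨T, hT⟩ := fb_exists_binom.{0} p h.prime
  have hT' := hT A z
  have hnun : nu ^ n ∈ P := P.pow_mem h.nu_mem n
  have hzB : z ∈ B := hz.mem hB (P.mul_mem _ _ h.lam_mem hnun)
  have hTB : aeval z T ∈ B := fb_aeval_mem B hzB T
  have e1 : (1 + z) ^ p - 1 - (p : A) * z = (p : A) * z ^ 2 * (aeval z T) + z ^ p := by
    rw [hT']; ring
  rw [e1]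
  obtain ⟨r, hr, rfl⟩ := hz
  obtain ⟨a, ha, hla⟩ := h.lam_eq
  obtain ⟨a', ha', hlp⟩ := h.lam_pow
  have hpA : (p : A) = algebraMap Kb A (p : Kb) := by simp
  refine FBCg.add ?_ ?_
  · -- p z² T
    refine ⟨algebraMap Kb A (a * nu ^ n) * (r ^ 2 * aeval (algebraMap Kb A (lam * nu ^ n) * r) T),
      hB _ (P.mul_mem _ _ ha hnun) _ (B.mul_mem (B.pow_mem hr 2) hTB), ?_⟩
    rw [hpA]
    have : algebraMap Kb A (p * lam * nu ^ (n + 1)) * algebraMap Kb A (a * nu ^ n)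
        = algebraMap Kb A (p : Kb) * (algebraMap Kb A (lam * nu ^ n)) ^ 2 := by
      rw [← map_mul, ← map_pow, ← map_mul]
      congr 1
      rw [hla]; ring
    calc algebraMap Kb A (p : Kb) * (algebraMap Kb A (lam * nu ^ n) * r) ^ 2 *
          aeval (algebraMap Kb A (lam * nu ^ n) * r) T
        = (algebraMap Kb A (p : Kb) * (algebraMap Kb A (lam * nu ^ n)) ^ 2) *
            (r ^ 2 * aeval (algebraMap Kb A (lam * nu ^ n) * r) T) := by ring
      _ = _ := by rw [← this]; ring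
  · -- z ^ p
    refine ⟨algebraMap Kb A (a' * nu ^ (n * p - n)) * r ^ p,
      hB _ (P.mul_mem _ _ ha' (P.pow_mem h.nu_mem _)) _ (B.pow_mem hr p), ?_⟩
    have hnp : n * p = n + (n * p - n) := by
      have : n ≤ n * p := Nat.le_mul_of_pos_right n h.prime.pos
      omega
    have : algebraMap Kb A (p * lam * nu ^ (n + 1)) * algebraMap Kb A (a' * nu ^ (n * p - n))
        = (algebraMap Kb A (lam * nu ^ n)) ^ p := by
      rw [← map_mul, ← map_pow]
      congr 1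
      rw [mul_pow, hlp, ← pow_mul]
      conv_rhs => rw [hnp]
      ring
    rw [mul_pow, ← this]; ring

/-- Products of elements `≡ 1`. -/
theorem fb_newton (hB : FBStable P B) {lam nu : Kb} (h : FBScal P p lam nu) {b : A} (hb : b ∈ B)
    (hbp : FBCg B (p * lam) (b ^ p - 1)) (n : ℕ) :
    ∃ y ∈ B, FBCg B (p * lam * nu ^ n) ((b * (1 + algebraMap Kb A lam * y)) ^ p - 1) := by
  induction n with
  | zero =>
    refine ⟨0, B.zero_mem, ?_⟩
    simpa using hbp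
  | succ n ih =>
    obtain ⟨y, hy, r, hr, hE⟩ := ih
    have hnun : nu ^ n ∈ P := P.pow_mem h.nu_mem n
    have hlamP := h.lam_mem
    obtain ⟨a, ha, hla⟩ := h.lam_eq
    set b' : A := b * (1 + algebraMap Kb A lam * y) with hb'
    have hb'B : b' ∈ B := B.mul_mem hb (B.add_mem B.one_mem (hB _ hlamP _ hy))
    set z : A := algebraMap Kb A (lam * nu ^ n) * (-r) with hz
    have hzC : FBCg B (lam * nu ^ n) z := ⟨-r, B.neg_mem hr, rfl⟩
    have hzB : z ∈ B := hzC.mem hB (P.mul_mem _ _ hlamP hnun)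
    refine ⟨y + algebraMap Kb A (nu ^ n) * (-r) +
        algebraMap Kb A (lam * nu ^ n) * (y * (-r)), ?_, ?_⟩
    · exact B.add_mem (B.add_mem hy (hB _ hnun _ (B.neg_mem hr)))
        (hB _ (P.mul_mem _ _ hlamP hnun) _ (B.mul_mem hy (B.neg_mem hr)))
    · have e0 : b * (1 + algebraMap Kb A lam * (y + algebraMap Kb A (nu ^ n) * (-r) +
          algebraMap Kb A (lam * nu ^ n) * (y * (-r)))) = b' * (1 + z) := by
        rw [hb', hz, map_mul]; ring
      rw [e0, mul_pow]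
      have hF := fb_expand hB h n hzC
      have hpA : (p : A) = algebraMap Kb A (p : Kb) := by simp
      -- E := b'^p - 1 = (p λ ν^n) r ;  F := (1+z)^p - 1 = p z + F'
      have hEz : (b' ^ p - 1) + (p : A) * z = 0 := by
        rw [hE, hz, hpA, map_mul, map_mul, map_mul]; ring
      have e1 : b' ^ p * (1 + z) ^ p - 1 =
          ((1 + z) ^ p - 1 - (p : A) * z) + (b' ^ p - 1) * ((1 + z) ^ p - 1) := by
        have : b' ^ p * (1 + z) ^ p - 1 = ((1 + z) ^ p - 1 - (p : A) * z) +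
            ((b' ^ p - 1) + (p : A) * z) + (b' ^ p - 1) * ((1 + z) ^ p - 1) := by ring
        rw [this, hEz, add_zero]
      rw [e1]
      refine hF.add ?_
      -- (b'^p - 1) ∈ p λ ν^n B, ((1+z)^p - 1) ∈ ν B
      have hE' : FBCg B (p * lam * nu ^ n) (b' ^ p - 1) := ⟨r, hr, hE⟩
      have hF2 : FBCg B nu ((1 + z) ^ p - 1) := by
        have h1 : (1 + z) ^ p - 1 = ((1 + z) ^ p - 1 - (p : A) * z) + (p : A) * z := by ring
        rw [h1]
        refine FBCg.add ?_ ?_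
        · refine FBCg.mono' hB (P.mul_mem _ _ (P.mul_mem _ _ (natCast_mem P p) hlamP) hnun) ?_ hF
          ring
        · refine ⟨algebraMap Kb A (p * a * nu ^ n) * (-r),
            hB _ (P.mul_mem _ _ (P.mul_mem _ _ (natCast_mem P p) ha) hnun) _ (B.neg_mem hr), ?_⟩
          rw [hz, hpA, ← mul_assoc, ← mul_assoc, ← map_mul, ← map_mul]
          congr 2
          rw [hla]; ring
      exact (hE'.mul hF2).congr (by ring)

end Newton

section Rigid

variable {A : Type} [CommRing A] [Algebra Kb A] {P : ValuationSubring Kb} {B : Subring A}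
  {p : ℕ}

/-- Rigidity, one-variable form: an approximate `p`-th root of `1` which is `≡ 1 mod λ` is
`≡ 1 mod λ ν^n`. -/
theorem fb_rigid_one (hB : FBStable P B) {lam nu : Kb} (h : FBScal P p lam nu) (n : ℕ) {z : A}
    (hz : FBCg B lam z) (hzp : FBCg B (p * lam * nu ^ n) ((1 + z) ^ p - 1)) :
    FBCg B (lam * nu ^ n) z := by
  have key : ∀ k, k ≤ n → FBCg B (lam * nu ^ k) z := by
    intro k
    induction k with
    | zero => intro _; simpa using hz
    | succ k ih =>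
      intro hk
      have hzk := ih (Nat.le_of_succ_le hk)
      have hF := fb_expand hB h k hzk
      -- p z = ((1+z)^p - 1) - F
      have hpz : FBCg B (p * lam * nu ^ (k + 1)) ((p : A) * z) := by
        have e : (p : A) * z = ((1 + z) ^ p - 1) - ((1 + z) ^ p - 1 - (p : A) * z) := by ring
        rw [e]
        refine FBCg.sub ?_ hF
        refine FBCg.mono' hB (P.pow_mem h.nu_mem (n - (k + 1))) ?_ hzp
        have : n = (k + 1) + (n - (k + 1)) := by omega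
        conv_lhs => rw [this, pow_add]
        ring
      have hpA : (p : A) = algebraMap Kb A (p : Kb) := by simp
      rw [hpA] at hpz
      exact FBCg.of_smul h.p_ne_zero (hpz.congr (by ring))
  exact key n le_rfl

/-- Rigidity: two approximate `p`-th roots of `1` which are congruent mod `λ` are congruent
mod `λ ν^n`. -/
theorem fb_rigid (hB : FBStable P B) {lam nu : Kb} (h : FBScal P p lam nu) (n : ℕ) {a b : A}
    (ha : a ∈ B) (hb : b ∈ B) (hab : FBCg B lam (b - a))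
    (hap : FBCg B (p * lam * nu ^ n) (a ^ p - 1)) (hbp : FBCg B (p * lam * nu ^ n) (b ^ p - 1)) :
    FBCg B (lam * nu ^ n) (b - a) := by
  have hnun : nu ^ n ∈ P := P.pow_mem h.nu_mem n
  have hpP : (p : Kb) ∈ P := natCast_mem P p
  have hp1 : p = (p - 1) + 1 := (Nat.sub_add_cancel h.prime.one_le).symm
  have hap1 : a ^ (p - 1) * a = a ^ p := by rw [← pow_succ, ← hp1]
  -- weaker forms of hap
  have hap' : FBCg B (lam * nu ^ n) (a ^ p - 1) :=
    FBCg.mono' hB hpP (by ring) hap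
  have hap'' : FBCg B lam (a ^ p - 1) := FBCg.mono hB hnun hap'
  set c : A := b * a ^ (p - 1) with hc
  have hcB : c ∈ B := B.mul_mem hb (B.pow_mem ha _)
  have hz : FBCg B lam (c - 1) := by
    have : c - 1 = (b - a) * a ^ (p - 1) + (a ^ p - 1) := by rw [hc, ← hap1]; ring
    rw [this]
    exact (hab.mul_right (B.pow_mem ha _)).add hap''
  have hcp : FBCg B (p * lam * nu ^ n) ((1 + (c - 1)) ^ p - 1) := by
    have : (1 + (c - 1)) ^ p = b ^ p * (a ^ p) ^ (p - 1) := by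
      have e : 1 + (c - 1) = b * a ^ (p - 1) := by rw [hc]; ring
      rw [e, mul_pow, ← pow_mul, ← pow_mul, mul_comm (p - 1) p]
    rw [this]
    exact hbp.mul_sub_one (hap.pow_sub_one (B.pow_mem ha _) _) (B.pow_mem (B.pow_mem ha _) _)
  have hz' := fb_rigid_one hB h n hz hcp
  -- (b - a) a^(p-1) = (c - 1) - (a^p - 1)
  have h1 : FBCg B (lam * nu ^ n) ((b - a) * a ^ (p - 1)) := by
    have : (b - a) * a ^ (p - 1) = (c - 1) - (a ^ p - 1) := by rw [hc, ← hap1]; ring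
    rw [this]
    exact hz'.sub hap'
  have h2 : FBCg B (lam * nu ^ n) ((b - a) * a ^ p) := by
    rw [← hap1, ← mul_assoc]
    exact h1.mul_right ha
  have h3 : FBCg B (lam * nu ^ n) ((b - a) * (a ^ p - 1)) :=
    hap'.mul_left (B.sub_mem hb ha)
  have : b - a = (b - a) * a ^ p - (b - a) * (a ^ p - 1) := by ring
  rw [this]
  exact h2.sub h3

end Rigid

end Fermat.Agent.FFL.FB
end MergeWrap_Lib_FFL_FB_Filt

section MergeWrap_Lib_FFL_FB_Unit -- from Lib/FFL/FB/Unit.lean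

set_option autoImplicit false
set_option linter.unusedSectionVars false
set_option linter.unusedVariables false

namespace Fermat.Agent.FFL.FB

open Fermat.Agent.FFL Polynomial

local notation "Kb" => AlgebraicClosure ℚ
local notation "GK" => (AlgebraicClosure ℚ ≃ₐ[ℚ] AlgebraicClosure ℚ)

variable {p : ℕ} {P : ValuationSubring Kb} {π1 : Kb} {N : Subgroup GK}

/-! ### Basic facts -/

theorem un_p_ne_zero (S : UnitSetting p P π1 N) : (p : Kb) ≠ 0 :=
  Nat.cast_ne_zero.2 S.hp.ne_zero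

theorem un_two_le (S : UnitSetting p P π1 N) : 2 ≤ p := S.hp.two_le

theorem un_e1_pos (S : UnitSetting p P π1 N) : 0 < p ^ 2 - 1 := by
  have := S.hp.two_le
  have h : 2 * 2 ≤ p * p := Nat.mul_le_mul this this
  have : p ^ 2 = p * p := by ring
  omega

theorem un_pi_ne_zero (S : UnitSetting p P π1 N) : π1 ≠ 0 := by
  intro h
  have h1 := S.hπ
  rw [h, zero_pow (un_e1_pos S).ne'] at h1
  exact un_p_ne_zero S (neg_eq_zero.1 h1.symm)

theorem un_pi_pow_ne_zero (S : UnitSetting p P π1 N) (i : ℕ) : π1 ^ i ≠ 0 :=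
  pow_ne_zero i (un_pi_ne_zero S)

theorem un_pi_mem_nonunits (S : UnitSetting p P π1 N) : π1 ∈ P.nonunits := by
  rw [P.mem_nonunits_iff]
  have h1 : P.valuation (π1 ^ (p ^ 2 - 1)) < 1 := by
    rw [S.hπ, Valuation.map_neg]
    exact ar_val_p_lt S.hP
  rw [map_pow] at h1
  by_contra h
  rw [not_lt] at h
  exact absurd h1 (not_lt.2 (one_le_pow₀ h))

theorem un_pi_mem (S : UnitSetting p P π1 N) : π1 ∈ P :=
  P.nonunits_subset (un_pi_mem_nonunits S)

theorem un_pi_pow_mem (S : UnitSetting p P π1 N) (i : ℕ) : π1 ^ i ∈ P :=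
  pow_mem (un_pi_mem S) i

theorem un_mul_mem_nonunits {x y : Kb} (hx : x ∈ P.nonunits) (hy : y ∈ P) : x * y ∈ P.nonunits := by
  rw [P.mem_nonunits_iff] at hx ⊢
  rw [map_mul]
  calc P.valuation x * P.valuation y ≤ P.valuation x * 1 :=
        mul_le_mul_right ((P.valuation_le_one_iff y).2 hy) _
    _ = P.valuation x := mul_one _
    _ < 1 := hx

theorem un_mul_mem_nonunits' {x y : Kb} (hx : x ∈ P) (hy : y ∈ P.nonunits) :
    x * y ∈ P.nonunits := by
  rw [mul_comm]; exact un_mul_mem_nonunits hy hx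

theorem un_add_mem_nonunits {x y : Kb} (hx : x ∈ P.nonunits) (hy : y ∈ P.nonunits) :
    x + y ∈ P.nonunits := by
  rw [P.mem_nonunits_iff] at hx hy ⊢
  exact lt_of_le_of_lt (P.valuation.map_add x y) (max_lt hx hy)

theorem un_neg_mem_nonunits {x : Kb} (hx : x ∈ P.nonunits) : -x ∈ P.nonunits := by
  rw [P.mem_nonunits_iff] at hx ⊢
  rwa [Valuation.map_neg]

theorem un_sub_mem_nonunits {x y : Kb} (hx : x ∈ P.nonunits) (hy : y ∈ P.nonunits) :
    x - y ∈ P.nonunits := by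
  rw [sub_eq_add_neg]; exact un_add_mem_nonunits hx (un_neg_mem_nonunits hy)

theorem un_pi_mul_mem_nonunits (S : UnitSetting p P π1 N) {y : Kb} (hy : y ∈ P) :
    π1 * y ∈ P.nonunits :=
  un_mul_mem_nonunits (un_pi_mem_nonunits S) hy

theorem un_mem_nonunits_of_pow {x : Kb} {n : ℕ} (h : x ^ n ∈ P.nonunits) : x ∈ P.nonunits := by
  rw [P.mem_nonunits_iff] at h ⊢
  rw [map_pow] at h
  by_contra hx
  rw [not_lt] at hx
  exact absurd h (not_lt.2 (one_le_pow₀ hx))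

theorem un_mem_of_pow {x : Kb} {n : ℕ} (hn : n ≠ 0) (h : x ^ n ∈ P) : x ∈ P := by
  rw [← P.valuation_le_one_iff] at h ⊢
  rw [map_pow] at h
  by_contra hx
  rw [not_le] at hx
  exact absurd h (not_le.2 (one_lt_pow₀ hx hn))

/-- `1 + x` is a unit of `P` for `x` in the maximal ideal. -/
theorem un_one_add_inv_mem {x : Kb} (hx : x ∈ P.nonunits) : (1 + x)⁻¹ ∈ P := by
  have h1 : P.valuation (1 + x) = 1 := by
    rw [P.mem_nonunits_iff] at hx
    have := P.valuation.map_add_eq_of_lt_left (x := (1 : Kb)) (y := x) (by rwa [map_one])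
    rw [this, map_one]
  rw [← P.valuation_le_one_iff, map_inv₀, h1, inv_one]

theorem un_one_add_ne_zero {x : Kb} (hx : x ∈ P.nonunits) : (1 + x) ≠ 0 := by
  intro h
  have h1 : x = -1 := by linear_combination h
  rw [h1, P.mem_nonunits_iff, Valuation.map_neg, map_one] at hx
  exact lt_irrefl _ hx

/-- `p = - π1 ^ (p² - 1)`. -/
theorem un_p_eq (S : UnitSetting p P π1 N) : (p : Kb) = -π1 ^ (p ^ 2 - 1) := by
  rw [S.hπ, neg_neg]

/-- The inertia ring is fixed by `N`. -/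
theorem un_fixed_of_inertiaRing (S : UnitSetting p P π1 N) {a : Kb} (ha : a ∈ inertiaRing P) :
    FixedBy N a :=
  fun σ hσ => ha.2 σ (S.hNI hσ)

theorem FixedBy.add {x y : Kb} (hx : FixedBy N x) (hy : FixedBy N y) : FixedBy N (x + y) :=
  fun σ hσ => by rw [map_add, hx σ hσ, hy σ hσ]

theorem FixedBy.sub {x y : Kb} (hx : FixedBy N x) (hy : FixedBy N y) : FixedBy N (x - y) :=
  fun σ hσ => by rw [map_sub, hx σ hσ, hy σ hσ]

theorem FixedBy.mul {x y : Kb} (hx : FixedBy N x) (hy : FixedBy N y) : FixedBy N (x * y) :=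
  fun σ hσ => by rw [map_mul, hx σ hσ, hy σ hσ]

theorem FixedBy.div {x y : Kb} (hx : FixedBy N x) (hy : FixedBy N y) : FixedBy N (x / y) :=
  fun σ hσ => by rw [map_div₀, hx σ hσ, hy σ hσ]

theorem FixedBy.inv {x : Kb} (hx : FixedBy N x) : FixedBy N x⁻¹ :=
  fun σ hσ => by rw [map_inv₀, hx σ hσ]

theorem FixedBy.pow {x : Kb} (hx : FixedBy N x) (n : ℕ) : FixedBy N (x ^ n) :=
  fun σ hσ => by rw [map_pow, hx σ hσ]

theorem FixedBy.one : FixedBy N (1 : Kb) := fun σ _ => map_one σ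

theorem FixedBy.zero : FixedBy N (0 : Kb) := fun σ _ => map_zero σ

theorem FixedBy.natCast (n : ℕ) : FixedBy N (n : Kb) := fun σ _ => map_natCast σ n

/-- Iterated `unif`: an `N`-fixed element of `π1^i 𝔪` lies in `π1^(i+1) P`. -/
theorem un_unif_pow (S : UnitSetting p P π1 N) {x : Kb} (hx : FixedBy N x) :
    x ∈ P.nonunits → x / π1 ∈ P := fun h => S.unif x h hx

/-- A nonunit of the inertia ring is divisible by `π1 ^ (p² - 1)`. -/
theorem un_inertia_nonunit (S : UnitSetting p P π1 N) {r : Kb} (hr : r ∈ inertiaRing P)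
    (hm : r ∈ P.nonunits) : ∃ y ∈ P, r = π1 ^ (p ^ 2 - 1) * y := by
  obtain ⟨y, hy, rfl⟩ := exists_eq_p_mul_of_mem_nonunits S.hp.ne_zero
    (unrProp p S.hp P S.hP) hr hm
  refine ⟨-y, P.neg_mem _ hy.1, ?_⟩
  rw [un_p_eq S]; ring

/-! ### Witness forms -/

theorem inU_iff (S : UnitSetting p P π1 N) {i : ℕ} {u : Kb} :
    InU P π1 i u ↔ ∃ y ∈ P, u = 1 + π1 ^ i * y := by
  have h0 := un_pi_pow_ne_zero S i
  constructor
  · intro h
    exact ⟨_, h, by field_simp; ring⟩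
  · rintro ⟨y, hy, rfl⟩
    show (1 + π1 ^ i * y - 1) / π1 ^ i ∈ P
    have : (1 + π1 ^ i * y - 1) / π1 ^ i = y := by field_simp; ring
    rwa [this]

theorem lcAt_iff (S : UnitSetting p P π1 N) {i : ℕ} {u a : Kb} :
    LcAt P π1 i u a ↔ ∃ y ∈ P, u = 1 + a * π1 ^ i + π1 ^ (i + 1) * y := by
  have h0 := un_pi_pow_ne_zero S (i + 1)
  constructor
  · intro h
    exact ⟨_, h, by field_simp; ring⟩
  · rintro ⟨y, hy, rfl⟩
    show (1 + a * π1 ^ i + π1 ^ (i + 1) * y - 1 - a * π1 ^ i) / π1 ^ (i + 1) ∈ P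
    have : (1 + a * π1 ^ i + π1 ^ (i + 1) * y - 1 - a * π1 ^ i) / π1 ^ (i + 1) = y := by
      field_simp; ring
    rwa [this]

theorem inU_mono (S : UnitSetting p P π1 N) {i j : ℕ} (hij : i ≤ j) {u : Kb}
    (h : InU P π1 j u) : InU P π1 i u := by
  rw [inU_iff S] at h ⊢
  obtain ⟨y, hy, rfl⟩ := h
  refine ⟨π1 ^ (j - i) * y, P.mul_mem _ _ (un_pi_pow_mem S _) hy, ?_⟩
  rw [← mul_assoc, ← pow_add, Nat.add_sub_cancel' hij]

theorem inU_one (S : UnitSetting p P π1 N) (i : ℕ) : InU P π1 i (1 : Kb) := by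
  rw [inU_iff S]; exact ⟨0, P.zero_mem, by ring⟩

/-! ### U1 : leading coefficients exist -/

theorem u1 (S : UnitSetting p P π1 N) : U1Statement P π1 N := by
  intro i u hu hin
  have h0 := un_pi_pow_ne_zero S i
  have hπ0 := un_pi_ne_zero S
  obtain ⟨t, ht, hxt⟩ := S.teich _ hin
  have hfix : FixedBy N ((u - 1) / π1 ^ i - t) :=
    ((hu.sub FixedBy.one).div (S.hπN.pow i)).sub (un_fixed_of_inertiaRing S ht)
  have h1 := S.unif _ hxt hfix
  refine ⟨t, ht, ?_⟩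
  show (u - 1 - t * π1 ^ i) / π1 ^ (i + 1) ∈ P
  have : (u - 1 - t * π1 ^ i) / π1 ^ (i + 1) = ((u - 1) / π1 ^ i - t) / π1 := by
    field_simp
    ring
  rwa [this]

/-! ### U1a : calculus of leading coefficients -/

theorem lcAt_unique (S : UnitSetting p P π1 N) {i : ℕ} {u a a' : Kb}
    (h : LcAt P π1 i u a) (h' : LcAt P π1 i u a') : a - a' ∈ P.nonunits := by
  rw [lcAt_iff S] at h h'
  obtain ⟨y, hy, e⟩ := h
  obtain ⟨y', hy', e'⟩ := h'
  have h0 := un_pi_pow_ne_zero S i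
  have h1 : a - a' = π1 * (y' - y) := by
    have h2 : (a - a') * π1 ^ i = π1 * (y' - y) * π1 ^ i := by
      have := e.symm.trans e'
      rw [pow_succ] at this
      linear_combination this
    exact mul_right_cancel₀ h0 h2
  rw [h1]
  exact un_pi_mul_mem_nonunits S (sub_mem hy' hy)

theorem lcAt_congr (S : UnitSetting p P π1 N) {i : ℕ} {u a a' : Kb}
    (ha : a ∈ inertiaRing P) (ha' : a' ∈ inertiaRing P)
    (h : LcAt P π1 i u a) (hd : a - a' ∈ P.nonunits) : LcAt P π1 i u a' := by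
  rw [lcAt_iff S] at h ⊢
  obtain ⟨y, hy, e⟩ := h
  obtain ⟨z, hz, ez⟩ := un_inertia_nonunit S ((inertiaRing P).sub_mem ha ha') hd
  have he := un_e1_pos S
  refine ⟨y + π1 ^ (p ^ 2 - 1 - 1) * z, P.add_mem _ _ hy (P.mul_mem _ _ (un_pi_pow_mem S _) hz), ?_⟩
  have h3 : π1 ^ (p ^ 2 - 1) = π1 ^ (p ^ 2 - 1 - 1) * π1 := by
    rw [← pow_succ, Nat.sub_add_cancel he]
  rw [h3] at ez
  rw [e, pow_succ]
  linear_combination (π1 ^ i) * ez

theorem lcAt_inU (S : UnitSetting p P π1 N) {i : ℕ} {u a : Kb} (ha : a ∈ P)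
    (h : LcAt P π1 i u a) : InU P π1 i u := by
  rw [lcAt_iff S] at h
  rw [inU_iff S]
  obtain ⟨y, hy, e⟩ := h
  refine ⟨a + π1 * y, P.add_mem _ _ ha (P.mul_mem _ _ (un_pi_mem S) hy), ?_⟩
  rw [e, pow_succ]; ring

theorem inU_succ_iff (i : ℕ) (u : Kb) : InU P π1 (i + 1) u ↔ LcAt P π1 i u 0 := by
  unfold InU LcAt
  rw [zero_mul, sub_zero]

theorem lcAt_mul (S : UnitSetting p P π1 N) {i : ℕ} {u u' a a' : Kb} (hi : 0 < i)
    (ha : a ∈ P) (ha' : a' ∈ P) (h : LcAt P π1 i u a) (h' : LcAt P π1 i u' a') :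
    LcAt P π1 i (u * u') (a + a') := by
  rw [lcAt_iff S] at h h' ⊢
  obtain ⟨y, hy, e⟩ := h
  obtain ⟨y', hy', e'⟩ := h'
  obtain ⟨j, rfl⟩ : ∃ j, i = j + 1 := ⟨i - 1, by omega⟩
  have hπ := un_pi_mem S
  have hj := un_pi_pow_mem S j
  have hj1 := un_pi_pow_mem S (j + 1)
  refine ⟨y + y' + a * a' * π1 ^ j + a * π1 ^ (j + 1) * y' + a' * π1 ^ (j + 1) * y
      + π1 ^ (j + 1 + 1) * y * y', ?_, ?_⟩
  · refine P.add_mem _ _ (P.add_mem _ _ (P.add_mem _ _ (P.add_mem _ _ (P.add_mem _ _ hy hy') ?_) ?_)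
      ?_) ?_
    · exact P.mul_mem _ _ (P.mul_mem _ _ ha ha') hj
    · exact P.mul_mem _ _ (P.mul_mem _ _ ha hj1) hy'
    · exact P.mul_mem _ _ (P.mul_mem _ _ ha' hj1) hy
    · exact P.mul_mem _ _ (P.mul_mem _ _ (un_pi_pow_mem S _) hy) hy'
  · rw [e, e']; ring

theorem lcAt_inv (S : UnitSetting p P π1 N) {i : ℕ} {u a : Kb} (hi : 0 < i)
    (ha : a ∈ P) (h : LcAt P π1 i u a) : LcAt P π1 i u⁻¹ (-a) := by
  rw [lcAt_iff S] at h ⊢
  obtain ⟨y, hy, e⟩ := h
  obtain ⟨j, rfl⟩ : ∃ j, i = j + 1 := ⟨i - 1, by omega⟩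
  have hπ := un_pi_mem S
  have hj := un_pi_pow_mem S j
  have hj1 := un_pi_pow_mem S (j + 1)
  have hx : a * π1 ^ (j + 1) + π1 ^ (j + 1 + 1) * y ∈ P.nonunits := by
    have : a * π1 ^ (j + 1) + π1 ^ (j + 1 + 1) * y = π1 * (a * π1 ^ j + π1 ^ (j + 1) * y) := by
      ring
    rw [this]
    exact un_pi_mul_mem_nonunits S (P.add_mem _ _ (P.mul_mem _ _ ha hj) (P.mul_mem _ _ hj1 hy))
  have hu : u = 1 + (a * π1 ^ (j + 1) + π1 ^ (j + 1 + 1) * y) := by rw [e]; ring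
  have huinv : u⁻¹ ∈ P := by rw [hu]; exact un_one_add_inv_mem hx
  have hu0 : u ≠ 0 := by rw [hu]; exact un_one_add_ne_zero hx
  refine ⟨(-y + a * a * π1 ^ j + a * π1 ^ (j + 1) * y) * u⁻¹, ?_, ?_⟩
  · refine P.mul_mem _ _ (P.add_mem _ _ (P.add_mem _ _ (P.neg_mem _ hy) ?_) ?_) huinv
    · exact P.mul_mem _ _ (P.mul_mem _ _ ha ha) hj
    · exact P.mul_mem _ _ (P.mul_mem _ _ ha hj1) hy
  · field_simp
    rw [e]; ring

theorem lcAt_div (S : UnitSetting p P π1 N) {i : ℕ} {u u' a a' : Kb} (hi : 0 < i)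
    (ha : a ∈ P) (ha' : a' ∈ P) (h : LcAt P π1 i u a) (h' : LcAt P π1 i u' a') :
    LcAt P π1 i (u / u') (a - a') := by
  rw [div_eq_mul_inv, sub_eq_add_neg]
  exact lcAt_mul S hi ha (P.neg_mem _ ha') h (lcAt_inv S hi ha' h')

theorem lcAt_pow (S : UnitSetting p P π1 N) {i : ℕ} {u a : Kb} (hi : 0 < i)
    (ha : a ∈ P) (h : LcAt P π1 i u a) (n : ℕ) : LcAt P π1 i (u ^ n) ((n : Kb) * a) := by
  induction n with
  | zero =>
    rw [pow_zero, Nat.cast_zero, zero_mul, ← inU_succ_iff]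
    exact inU_one S _
  | succ n ih =>
    rw [pow_succ, Nat.cast_succ, add_mul, one_mul]
    exact lcAt_mul S hi (P.mul_mem _ _ (natCast_mem P n) ha) ha ih h

theorem u1a (S : UnitSetting p P π1 N) : U1aStatement P π1 :=
  ⟨fun _ _ _ _ h h' => lcAt_unique S h h',
   fun _ _ _ _ ha ha' h hd => lcAt_congr S ha ha' h hd,
   fun _ _ _ ha h => lcAt_inU S ha h,
   fun i u => inU_succ_iff i u,
   fun _ _ _ _ _ hi ha ha' h h' => lcAt_mul S hi ha ha' h h',
   fun _ _ _ hi ha h => lcAt_inv S hi ha h⟩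

/-! ### U5 : Galois action -/

theorem un_theta_mem (S : UnitSetting p P π1 N) (σ : GK) : σ π1 / π1 ∈ P := by
  have h0 := un_pi_ne_zero S
  have h1 : (σ π1 / π1) ^ (p ^ 2 - 1) = 1 := by
    rw [div_pow, ← map_pow, S.hπ, map_neg, map_natCast]
    exact div_self (by rw [neg_ne_zero]; exact un_p_ne_zero S)
  exact un_mem_of_pow (un_e1_pos S).ne' (by rw [h1]; exact P.one_mem)

theorem u5 (S : UnitSetting p P π1 N) : U5Statement P π1 := by
  intro σ hσ i u a h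
  rw [lcAt_iff S] at h ⊢
  obtain ⟨y, hy, e⟩ := h
  have h0 := un_pi_ne_zero S
  refine ⟨(σ π1 / π1) ^ (i + 1) * σ y, P.mul_mem _ _ (pow_mem (un_theta_mem S σ) _) (hσ y hy), ?_⟩
  rw [e]
  simp only [map_add, map_mul, map_pow, map_one, div_pow]
  have hi := un_pi_pow_ne_zero S i
  have hi1 := un_pi_pow_ne_zero S (i + 1)
  field_simp

/-! ### Levels of nonzero elements -/

theorem un_pi_pow_inv_not_mem (S : UnitSetting p P π1 N) {k : ℕ} (hk : 0 < k) :
    (π1 ^ k)⁻¹ ∉ P := by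
  intro h
  obtain ⟨j, rfl⟩ : ∃ j, k = j + 1 := ⟨k - 1, by omega⟩
  have h1 : π1 * (π1 ^ j * (π1 ^ (j + 1))⁻¹) ∈ P.nonunits :=
    un_pi_mul_mem_nonunits S (P.mul_mem _ _ (un_pi_pow_mem S j) h)
  have h2 : π1 * (π1 ^ j * (π1 ^ (j + 1))⁻¹) = 1 := by
    have := un_pi_pow_ne_zero S (j + 1)
    field_simp
    ring
  rw [h2, P.mem_nonunits_iff, map_one] at h1
  exact lt_irrefl _ h1

/-- If `π1 ^ a * e = π1 ^ b * y` with `e` a unit of `P` and `y ∈ P` then `b ≤ a`. -/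
theorem un_le_of_eq (S : UnitSetting p P π1 N) {a b : ℕ} {e y : Kb} (he : e⁻¹ ∈ P) (he0 : e ≠ 0)
    (hy : y ∈ P) (h : π1 ^ a * e = π1 ^ b * y) : b ≤ a := by
  by_contra hlt
  rw [not_le] at hlt
  obtain ⟨k, rfl⟩ : ∃ k, b = a + (k + 1) := ⟨b - a - 1, by omega⟩
  have ha := un_pi_pow_ne_zero S a
  have h1 : e = π1 ^ (k + 1) * y := by
    have h2 : π1 ^ a * e = π1 ^ a * (π1 ^ (k + 1) * y) := by rw [h, pow_add]; ring
    exact mul_left_cancel₀ ha h2
  have h3 : π1 * (π1 ^ k * y * e⁻¹) ∈ P.nonunits :=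
    un_pi_mul_mem_nonunits S (P.mul_mem _ _ (P.mul_mem _ _ (un_pi_pow_mem S k) hy) he)
  have h4 : π1 * (π1 ^ k * y * e⁻¹) = 1 := by
    have : π1 * (π1 ^ k * y * e⁻¹) = (π1 ^ (k + 1) * y) * e⁻¹ := by ring
    rw [this, ← h1, mul_inv_cancel₀ he0]
  rw [h4, P.mem_nonunits_iff, map_one] at h3
  exact lt_irrefl _ h3

/-- An `N`-fixed element of `P` which is not in the maximal ideal is a unit. -/
theorem un_inv_mem {x : Kb} (hx : x ∈ P) (hnu : x ∉ P.nonunits) : x⁻¹ ∈ P :=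
  base_inv_mem_of_not_mem_nonunits hx hnu

/-- Every nonzero `N`-fixed element of `P` is `π1 ^ j · unit`. -/
theorem un_exists_level (S : UnitSetting p P π1 N) {w : Kb} (hw : w ∈ P) (hw0 : w ≠ 0)
    (hfix : FixedBy N w) :
    ∃ (j : ℕ) (w₀ : Kb), w = π1 ^ j * w₀ ∧ w₀ ∈ P ∧ w₀⁻¹ ∈ P ∧ w₀ ≠ 0 ∧ FixedBy N w₀ := by
  classical
  obtain ⟨m, hm⟩ := dvdProp S.hp S.hP w hw0
  have hp0 := un_p_ne_zero S
  -- `p ^ m = ± π1 ^ (e m)`
  have hpm : (p : Kb) ^ m = (-1) ^ m * π1 ^ ((p ^ 2 - 1) * m) := by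
    rw [un_p_eq S, neg_pow, pow_mul]
  let Q : ℕ → Prop := fun k => w / π1 ^ k ∈ P
  have hQ0 : Q 0 := by
    show w / π1 ^ 0 ∈ P
    rwa [pow_zero, div_one]
  have hbound : ∀ k, Q k → k ≤ (p ^ 2 - 1) * m := by
    intro k hk
    have h1 : (-1 : Kb) ^ m * (p : Kb) ^ m / w * (w / π1 ^ k) ∈ P :=
      P.mul_mem _ _ (by
        have : (-1 : Kb) ^ m * (p : Kb) ^ m / w = (-1) ^ m * ((p : Kb) ^ m / w) := by ring
        rw [this]
        exact P.mul_mem _ _ (pow_mem (P.neg_mem _ P.one_mem) m) hm) hk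
    have hk0 := un_pi_pow_ne_zero S k
    have h2 : π1 ^ ((p ^ 2 - 1) * m) * (1 : Kb) =
        π1 ^ k * ((-1 : Kb) ^ m * (p : Kb) ^ m / w * (w / π1 ^ k)) := by
      have h3 : ((-1 : Kb) ^ m) * ((-1 : Kb) ^ m) = 1 := by
        rw [← mul_pow]; norm_num
      have hrhs : π1 ^ k * ((-1 : Kb) ^ m * (p : Kb) ^ m / w * (w / π1 ^ k)) =
          (-1 : Kb) ^ m * (p : Kb) ^ m := by
        field_simp
      rw [hrhs, hpm, ← mul_assoc, h3, one_mul, mul_one]
    exact un_le_of_eq S (by rw [inv_one]; exact P.one_mem) one_ne_zero h1 h2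
  set j := Nat.findGreatest Q ((p ^ 2 - 1) * m) with hj
  have hQj : Q j := Nat.findGreatest_spec (P := Q) (Nat.zero_le _) hQ0
  have hQj1 : ¬ Q (j + 1) := by
    intro h
    have hle := hbound _ h
    have := Nat.le_findGreatest (P := Q) hle h
    omega
  have hj0 := un_pi_pow_ne_zero S j
  have hfix0 : FixedBy N (w / π1 ^ j) := hfix.div (S.hπN.pow j)
  have hnu : w / π1 ^ j ∉ P.nonunits := by
    intro h
    apply hQj1
    have := S.unif _ h hfix0
    show w / π1 ^ (j + 1) ∈ P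
    rw [pow_succ, ← div_div]
    exact this
  refine ⟨j, w / π1 ^ j, by field_simp, hQj, un_inv_mem hQj hnu, ?_, hfix0⟩
  exact div_ne_zero hw0 hj0

/-! ### U3 (a) : `p`-th powers have levels divisible by `p` -/

/-- The binomial expansion `z ^ p = 1 + w ^ p + p w g`, `w = z - 1`, `g ∈ P`. -/
theorem un_binom (S : UnitSetting p P π1 N) {w : Kb} (hw : w ∈ P) :
    ∃ g ∈ P, (1 + w) ^ p = 1 + w ^ p + (p : Kb) * w * g ∧ g - 1 = w * ((g - 1) / w) ∧
      ∃ T ∈ P, g = 1 + w * T := by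
  obtain ⟨T, hT⟩ := fb_exists_binom p S.hp
  have hTm : aeval w T ∈ P := fb_aeval_mem P.toSubring hw T
  have h : (1 + w) ^ p = 1 + (p : Kb) * w + (p : Kb) * w ^ 2 * (aeval w T) + w ^ p := by
    convert hT Kb w using 4
    rw [aeval_def, aeval_def]
    congr 1
  generalize aeval w T = A at h hTm
  refine ⟨1 + w * A, P.add_mem _ _ P.one_mem (P.mul_mem _ _ hw hTm), ?_, ?_,
    A, hTm, rfl⟩
  · rw [h]; ring
  · by_cases h0 : w = 0
    · rw [h0]; simp
    · field_simp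

theorem un_e1_succ (S : UnitSetting p P π1 N) : p ^ 2 - 1 + 1 = p ^ 2 := by
  have := un_e1_pos S
  have h2 : 1 ≤ p ^ 2 := Nat.one_le_pow _ _ S.hp.pos
  omega

theorem u3a (S : UnitSetting p P π1 N) {i : ℕ} {z : Kb} (hpi : ¬ p ∣ i) (hi : i < p ^ 2 + p)
    (hz : FixedBy N z) (h : InU P π1 i (z ^ p)) : InU P π1 (i + 1) (z ^ p) := by
  have hi0 : 0 < i := Nat.pos_of_ne_zero (fun h0 => hpi (h0 ▸ dvd_zero p))
  have hp2 := S.hp.two_le
  have hpp := S.hp.pos
  rw [inU_iff S] at h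
  obtain ⟨y, hy, e⟩ := h
  have hπi : π1 ^ i * y ∈ P.nonunits := by
    obtain ⟨j, rfl⟩ : ∃ j, i = j + 1 := ⟨i - 1, by omega⟩
    rw [pow_succ, mul_comm (π1 ^ j), mul_assoc]
    exact un_pi_mul_mem_nonunits S (P.mul_mem _ _ (un_pi_pow_mem S j) hy)
  have hzp : z ^ p ∈ P := by
    rw [e]; exact P.add_mem _ _ P.one_mem (P.nonunits_subset hπi)
  have hzP : z ∈ P := un_mem_of_pow S.hp.ne_zero hzp
  -- `w = z - 1` is in the maximal ideal
  set w := z - 1 with hwdef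
  have hwP : w ∈ P := sub_mem hzP P.one_mem
  have hz1 : z = 1 + w := by rw [hwdef]; ring
  obtain ⟨g, hg, hbin, -, T, hT, hgT⟩ := un_binom S hwP
  rw [← hz1] at hbin
  have hpm : (p : Kb) ∈ P.nonunits := S.hP
  have hwpm : w ^ p ∈ P.nonunits := by
    have : w ^ p = π1 ^ i * y - (p : Kb) * (w * g) := by
      have := e.symm.trans hbin
      linear_combination (-1 : Kb) * this
    rw [this]
    exact un_sub_mem_nonunits hπi (un_mul_mem_nonunits hpm (P.mul_mem _ _ hwP hg))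
  have hwm : w ∈ P.nonunits := un_mem_nonunits_of_pow hwpm
  have hwfix : FixedBy N w := hz.sub FixedBy.one
  by_cases hw0 : w = 0
  · have : z = 1 := by rw [hz1, hw0, add_zero]
    rw [this, one_pow]
    exact inU_one S _
  obtain ⟨j, w₀, hw, hw₀, hw₀inv, hw₀0, -⟩ := un_exists_level S hwP hw0 hwfix
  have hj0 : 0 < j := by
    rcases Nat.eq_zero_or_pos j with h0 | h0
    · exfalso
      rw [h0, pow_zero, one_mul] at hw
      rw [hw, P.mem_nonunits_iff] at hwm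
      have h1 : P.valuation (w₀ * w₀⁻¹) < 1 := by
        rw [map_mul]
        calc P.valuation w₀ * P.valuation w₀⁻¹ ≤ P.valuation w₀ * 1 :=
              mul_le_mul_right ((P.valuation_le_one_iff _).2 hw₀inv) _
          _ = P.valuation w₀ := mul_one _
          _ < 1 := hwm
      rw [mul_inv_cancel₀ hw₀0, map_one] at h1
      exact lt_irrefl _ h1
    · exact h0
  have hN := un_e1_succ S
  -- `z ^ p - 1 = π1 ^ (p j) w₀ ^ p - π1 ^ (e + j) w₀ g`
  have hexp : z ^ p = 1 + π1 ^ (p * j) * w₀ ^ p - π1 ^ (p ^ 2 - 1 + j) * (w₀ * g) := by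
    rw [hbin, hw, un_p_eq S, mul_pow, ← pow_mul, pow_add, mul_comm j p]
    ring
  rw [inU_iff S]
  rcases Nat.lt_or_ge p j with hjp | hjp
  · -- `j ≥ p + 1`
    have h1 : i + 1 ≤ p * j := by
      have : p * (p + 1) ≤ p * j := Nat.mul_le_mul_left p hjp
      have h2 : p * (p + 1) = p ^ 2 + p := by ring
      omega
    have h2 : i + 1 ≤ p ^ 2 - 1 + j := by omega
    refine ⟨π1 ^ (p * j - (i + 1)) * w₀ ^ p - π1 ^ (p ^ 2 - 1 + j - (i + 1)) * (w₀ * g), ?_, ?_⟩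
    · exact sub_mem (P.mul_mem _ _ (un_pi_pow_mem S _) (pow_mem hw₀ _))
        (P.mul_mem _ _ (un_pi_pow_mem S _) (P.mul_mem _ _ hw₀ hg))
    · rw [hexp]
      have e1 : π1 ^ (p * j) = π1 ^ (i + 1) * π1 ^ (p * j - (i + 1)) := by
        rw [← pow_add, Nat.add_sub_cancel' h1]
      have e2 : π1 ^ (p ^ 2 - 1 + j) = π1 ^ (i + 1) * π1 ^ (p ^ 2 - 1 + j - (i + 1)) := by
        rw [← pow_add, Nat.add_sub_cancel' h2]
      rw [e1, e2]; ring
  · -- `j ≤ p`
    have hk : p * j + 1 ≤ p ^ 2 - 1 + j := by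
      have h3 : (p - 1) * j ≤ (p - 1) * p := Nat.mul_le_mul_left _ hjp
      obtain ⟨q, rfl⟩ : ∃ q, p = q + 1 := ⟨p - 1, by omega⟩
      have h4 : (q + 1) ^ 2 = q * (q + 1) + q + 1 := by ring
      have h5 : (q + 1) * j = q * j + j := by ring
      simp only [Nat.add_sub_cancel] at h3
      have hq : 1 ≤ q := by omega
      omega
    -- the unit `E`
    set x := -(π1 ^ (p ^ 2 - 1 + j - (p * j + 1)) * (w₀ * g) * (w₀⁻¹) ^ p) with hxdef
    have hxm : π1 * x ∈ P.nonunits :=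
      un_pi_mul_mem_nonunits S (P.neg_mem _ (P.mul_mem _ _ (P.mul_mem _ _ (un_pi_pow_mem S _)
        (P.mul_mem _ _ hw₀ hg)) (pow_mem hw₀inv _)))
    have hE : z ^ p = 1 + π1 ^ (p * j) * (w₀ ^ p * (1 + π1 * x)) := by
      rw [hexp, hxdef]
      have e2 : π1 ^ (p ^ 2 - 1 + j) = π1 ^ (p * j) * π1 * π1 ^ (p ^ 2 - 1 + j - (p * j + 1)) := by
        rw [← pow_succ, ← pow_add, Nat.add_sub_cancel' hk]
      rw [e2]
      have hwp : w₀ ^ p * (w₀⁻¹) ^ p = 1 := by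
        rw [← mul_pow, mul_inv_cancel₀ hw₀0, one_pow]
      linear_combination (π1 ^ (p * j) * π1 * π1 ^ (p ^ 2 - 1 + j - (p * j + 1)) * (w₀ * g)) * hwp
    have hEinv : (w₀ ^ p * (1 + π1 * x))⁻¹ ∈ P := by
      rw [mul_inv, ← inv_pow]
      exact P.mul_mem _ _ (pow_mem hw₀inv _) (un_one_add_inv_mem hxm)
    have hE0 : w₀ ^ p * (1 + π1 * x) ≠ 0 :=
      mul_ne_zero (pow_ne_zero _ hw₀0) (un_one_add_ne_zero hxm)
    have hEP : w₀ ^ p * (1 + π1 * x) ∈ P :=
      P.mul_mem _ _ (pow_mem hw₀ _) (P.add_mem _ _ P.one_mem (P.nonunits_subset hxm))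
    have hle : i ≤ p * j := by
      refine un_le_of_eq S hEinv hE0 hy ?_
      have := hE.symm.trans e
      linear_combination this
    have hne : i ≠ p * j := fun h => hpi (h ▸ dvd_mul_right p j)
    have hlt : i + 1 ≤ p * j := by omega
    refine ⟨π1 ^ (p * j - (i + 1)) * (w₀ ^ p * (1 + π1 * x)),
      P.mul_mem _ _ (un_pi_pow_mem S _) hEP, ?_⟩
    rw [hE]
    have e1 : π1 ^ (p * j) = π1 ^ (i + 1) * π1 ^ (p * j - (i + 1)) := by
      rw [← pow_add, Nat.add_sub_cancel' hlt]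
    rw [e1]; ring

/-! ### U3 (b) : levels divisible by `p` move up -/

theorem un_inertia_mem {a : Kb} (ha : a ∈ inertiaRing P) : a ∈ P := ha.1

theorem un_pi_pow_mul_mem_nonunits (S : UnitSetting p P π1 N) {j : ℕ} (hj : 0 < j) {y : Kb}
    (hy : y ∈ P) : π1 ^ j * y ∈ P.nonunits := by
  obtain ⟨k, rfl⟩ : ∃ k, j = k + 1 := ⟨j - 1, by omega⟩
  rw [pow_succ, mul_comm (π1 ^ k), mul_assoc]
  exact un_pi_mul_mem_nonunits S (P.mul_mem _ _ (un_pi_pow_mem S k) hy)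

/-- `(p - 1) j + 1 ≤ p² - 1` for `j ≤ p`: `p j + 1 ≤ p² - 1 + j`. -/
theorem un_arith (S : UnitSetting p P π1 N) {j : ℕ} (hjp : j ≤ p) :
    p * j + 1 ≤ p ^ 2 - 1 + j := by
  have hp2 := S.hp.two_le
  have hN := un_e1_succ S
  have h3 : (p - 1) * j ≤ (p - 1) * p := Nat.mul_le_mul_left _ hjp
  obtain ⟨q, rfl⟩ : ∃ q, p = q + 1 := ⟨p - 1, by omega⟩
  have h4 : (q + 1) ^ 2 = q * (q + 1) + q + 1 := by ring
  have h5 : (q + 1) * j = q * j + j := by ring
  simp only [Nat.add_sub_cancel] at h3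
  have hq : 1 ≤ q := by omega
  omega

theorem u3b (S : UnitSetting p P π1 N) {i : ℕ} {u : Kb} (hpi : p ∣ i) (hi0 : 0 < i)
    (hi : i < p ^ 2 + p) (hu : FixedBy N u) (h : InU P π1 i u) :
    ∃ z : Kb, FixedBy N z ∧ z ≠ 0 ∧ InU P π1 (i + 1) (u / z ^ p) := by
  obtain ⟨j, rfl⟩ := hpi
  have hpp := S.hp.pos
  have hj0 : 0 < j := Nat.pos_of_ne_zero (fun h0 => by rw [h0] at hi0; simp at hi0)
  have hjp : j ≤ p := by
    by_contra hlt
    rw [not_le] at hlt
    have : p * (p + 1) ≤ p * j := Nat.mul_le_mul_left p hlt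
    have h2 : p * (p + 1) = p ^ 2 + p := by ring
    omega
  obtain ⟨a, ha, hlc⟩ := u1 S (p * j) u hu h
  obtain ⟨b, hb, hab⟩ := exists_inertiaRing_pow_sub_mem S.hp S.hP ha.1
  have hw : b * π1 ^ j ∈ P := P.mul_mem _ _ hb.1 (un_pi_pow_mem S j)
  have hwm : b * π1 ^ j ∈ P.nonunits := by
    rw [mul_comm]; exact un_pi_pow_mul_mem_nonunits S hj0 hb.1
  obtain ⟨g, hg, hbin, -, -⟩ := un_binom S hw
  have hk := un_arith S hjp
  have hz0 : (1 + b * π1 ^ j) ≠ 0 := un_one_add_ne_zero hwm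
  have hzfix : FixedBy N (1 + b * π1 ^ j) :=
    FixedBy.one.add ((un_fixed_of_inertiaRing S hb).mul (S.hπN.pow j))
  -- the leading coefficient of `z ^ p`
  have hlcz : LcAt P π1 (p * j) ((1 + b * π1 ^ j) ^ p) (b ^ p) := by
    rw [lcAt_iff S]
    refine ⟨-(π1 ^ (p ^ 2 - 1 + j - (p * j + 1)) * (b * g)),
      P.neg_mem _ (P.mul_mem _ _ (un_pi_pow_mem S _) (P.mul_mem _ _ hb.1 hg)), ?_⟩
    rw [hbin, un_p_eq S]
    have e2 : π1 ^ (p ^ 2 - 1 + j) = π1 ^ (p * j + 1) * π1 ^ (p ^ 2 - 1 + j - (p * j + 1)) := by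
      rw [← pow_add, Nat.add_sub_cancel' hk]
    have e3 : π1 ^ (p ^ 2 - 1) * π1 ^ j = π1 ^ (p ^ 2 - 1 + j) := by rw [pow_add]
    rw [mul_pow, ← pow_mul, mul_comm j p]
    linear_combination (-(b * g)) * e3 + (-(b * g)) * e2
  have hbp : b ^ p ∈ inertiaRing P := pow_mem hb p
  have hlcz' : LcAt P π1 (p * j) ((1 + b * π1 ^ j) ^ p) a := by
    refine lcAt_congr S hbp ha hlcz ?_
    have : b ^ p - a = -(a - b ^ p) := by ring
    rw [this]
    exact un_neg_mem_nonunits hab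
  refine ⟨1 + b * π1 ^ j, hzfix, hz0, ?_⟩
  rw [inU_succ_iff]
  have := lcAt_div S hi0 ha.1 ha.1 hlc hlcz'
  rwa [sub_self] at this

theorem u3 (S : UnitSetting p P π1 N) : U3Statement p P π1 N :=
  ⟨fun _ _ hpi hi hz h => u3a S hpi hi hz h, fun _ _ hpi hi0 hi hu h => u3b S hpi hi0 hi hu h⟩

/-! ### U2 : `U(p² + p)` consists of `p`-th powers -/

/-- Artin–Schreier: `b ^ p - b ≡ a` has a solution in the inertia ring. -/
theorem un_artinSchreier (S : UnitSetting p P π1 N) {a : Kb} (ha : a ∈ P) :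
    ∃ b ∈ inertiaRing P, b ^ p - b - a ∈ P.nonunits := by
  have hp1 : 1 < p := S.hp.one_lt
  have hdeg : (X ^ p - X - C a : Kb[X]).degree ≠ 0 := by
    have h1 : (X ^ p - X - C a : Kb[X]) = X ^ p - (X + C a) := by ring
    rw [h1, degree_sub_eq_left_of_degree_lt]
    · rw [degree_X_pow]; exact_mod_cast S.hp.ne_zero
    · rw [degree_X_pow]
      calc (X + C a : Kb[X]).degree ≤ 1 := by
            refine (degree_add_le _ _).trans (max_le degree_X_le ?_)
            exact degree_C_le.trans (by norm_num)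
        _ < (p : WithBot ℕ) := by exact_mod_cast hp1
  obtain ⟨β, hβ⟩ := IsAlgClosed.exists_root (X ^ p - X - C a : Kb[X]) hdeg
  have hβ' : β ^ p - β = a := by
    have : β ^ p - β - a = 0 := by simpa using hβ
    linear_combination this
  have hβP : β ∈ P := by
    rw [← P.valuation_le_one_iff]
    by_contra hgt
    rw [not_le] at hgt
    have h1 : P.valuation β < P.valuation (β ^ p) := by
      rw [map_pow]
      calc P.valuation β = P.valuation β ^ 1 := (pow_one _).symm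
        _ < P.valuation β ^ p := pow_lt_pow_right₀ hgt hp1
    have h2 : P.valuation (β ^ p - β) = P.valuation (β ^ p) :=
      P.valuation.map_sub_eq_of_lt_left h1
    rw [hβ'] at h2
    have h3 : P.valuation a ≤ 1 := (P.valuation_le_one_iff a).2 ha
    rw [h2] at h3
    exact absurd (hgt.trans h1) (not_lt.2 h3)
  obtain ⟨b, hb, hβb⟩ := S.teich β hβP
  refine ⟨b, hb, ?_⟩
  have h4 : b ^ p - b - a = -((β ^ p - b ^ p) - (β - b)) := by rw [← hβ']; ring
  rw [h4]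
  exact un_neg_mem_nonunits
    (un_sub_mem_nonunits (pow_sub_pow_mem_nonunits hβP hb.1 hβb p) hβb)

theorem u2 (S : UnitSetting p P π1 N) : U2Statement p P π1 N := by
  intro u hu h
  have hp2 := S.hp.two_le
  have hpp := S.hp.pos
  have hN := un_e1_succ S
  have hi0 : 0 < p ^ 2 + p := by positivity
  obtain ⟨a, ha, hlc⟩ := u1 S (p ^ 2 + p) u hu h
  obtain ⟨b, hb, hab⟩ := un_artinSchreier S ha.1
  have hw : b * π1 ^ (p + 1) ∈ P := P.mul_mem _ _ hb.1 (un_pi_pow_mem S _)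
  have hwm : b * π1 ^ (p + 1) ∈ P.nonunits := by
    rw [mul_comm]; exact un_pi_pow_mul_mem_nonunits S (by omega) hb.1
  obtain ⟨g, hg, hbin, -, T, hT, hgT⟩ := un_binom S hw
  have hy0 : (1 + b * π1 ^ (p + 1)) ≠ 0 := un_one_add_ne_zero hwm
  have hy0fix : FixedBy N (1 + b * π1 ^ (p + 1)) :=
    FixedBy.one.add ((un_fixed_of_inertiaRing S hb).mul (S.hπN.pow _))
  have hbpb : b ^ p - b ∈ inertiaRing P := sub_mem (pow_mem hb p) hb
  have hlc0 : LcAt P π1 (p ^ 2 + p) ((1 + b * π1 ^ (p + 1)) ^ p) (b ^ p - b) := by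
    rw [lcAt_iff S]
    refine ⟨-(b * b * π1 ^ p * T), P.neg_mem _ (P.mul_mem _ _ (P.mul_mem _ _
      (P.mul_mem _ _ hb.1 hb.1) (un_pi_pow_mem S _)) hT), ?_⟩
    rw [hbin, hgT, un_p_eq S, mul_pow, ← pow_mul]
    have e1 : (p + 1) * p = p ^ 2 + p := by ring
    have e2 : π1 ^ (p ^ 2 - 1) * π1 ^ (p + 1) = π1 ^ (p ^ 2 + p) := by
      rw [← pow_add]; congr 1; omega
    have e3 : π1 ^ (p ^ 2 + p + 1) = π1 ^ (p ^ 2 + p) * π1 := pow_succ _ _
    have e4 : π1 ^ (p + 1) = π1 ^ p * π1 := pow_succ _ _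
    rw [e1, e3]
    linear_combination (-(b * (1 + b * π1 ^ (p + 1) * T))) * e2 +
      (-(b * b * T * π1 ^ (p ^ 2 + p))) * e4
  have hlc1 : LcAt P π1 (p ^ 2 + p) ((1 + b * π1 ^ (p + 1)) ^ p) a :=
    lcAt_congr S hbpb ha hlc0 hab
  have hdiv : InU P π1 (p ^ 2 + p + 1) (u / (1 + b * π1 ^ (p + 1)) ^ p) := by
    rw [inU_succ_iff]
    have := lcAt_div S hi0 ha.1 ha.1 hlc hlc1
    rwa [sub_self] at this
  rw [inU_iff S] at hdiv
  obtain ⟨y', hy', e⟩ := hdiv
  have hxP : π1 ^ (p ^ 2 + p + 1) * y' ∈ P := P.mul_mem _ _ (un_pi_pow_mem S _) hy'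
  have hxfix : FixedBy N (π1 ^ (p ^ 2 + p + 1) * y') := by
    have : π1 ^ (p ^ 2 + p + 1) * y' = u / (1 + b * π1 ^ (p + 1)) ^ p - 1 := by rw [e]; ring
    rw [this]
    exact (hu.div (hy0fix.pow p)).sub FixedBy.one
  have hsmall : (π1 ^ (p ^ 2 + p + 1) * y') ^ (p - 1) / (p : Kb) ^ p ∈ P.nonunits := by
    have hpk : (p : Kb) ^ p = (-1) ^ p * π1 ^ ((p ^ 2 - 1) * p) := by
      rw [un_p_eq S, neg_pow, pow_mul]
    have hexp : (p ^ 2 + p + 1) * (p - 1) = (p ^ 2 - 1) * p + (p - 1) := by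
      obtain ⟨q, rfl⟩ : ∃ q, p = q + 1 := ⟨p - 1, by omega⟩
      simp only [Nat.add_sub_cancel]
      have h1 : (q + 1) ^ 2 - 1 = q * q + 2 * q := by
        have : (q + 1) ^ 2 = q * q + 2 * q + 1 := by ring
        omega
      rw [h1]; ring
    have h1 : (π1 ^ (p ^ 2 + p + 1) * y') ^ (p - 1) / (p : Kb) ^ p =
        π1 ^ (p - 1) * ((-1) ^ p * y' ^ (p - 1)) := by
      rw [hpk, mul_pow, ← pow_mul, hexp, pow_add]
      have h3 : ((-1 : Kb) ^ p) * ((-1 : Kb) ^ p) = 1 := by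
        rw [← mul_pow]; norm_num
      have hne : π1 ^ ((p ^ 2 - 1) * p) ≠ 0 := un_pi_pow_ne_zero S _
      have hne1 : ((-1 : Kb) ^ p) ≠ 0 := pow_ne_zero _ (by norm_num)
      field_simp
      linear_combination (-(π1 ^ (p - 1) * y' ^ (p - 1))) * h3
    rw [h1]
    exact un_pi_pow_mul_mem_nonunits S (by omega)
      (P.mul_mem _ _ (pow_mem (P.neg_mem _ P.one_mem) _) (pow_mem hy' _))
  obtain ⟨y1, hy1fix, hy1⟩ := S.root _ hxP hxfix hsmall
  refine ⟨(1 + b * π1 ^ (p + 1)) * y1, hy0fix.mul hy1fix, ?_⟩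
  rw [mul_pow, hy1, ← e]
  field_simp

/-! ### U6 : the normal form -/

/-- Climbing the levels: an element of `U(i)`, `i ≥ 1`, is a `p`-th power or, up to a `p`-th
power, in unit normal form. -/
theorem un_climb (S : UnitSetting p P π1 N) : ∀ (n i : ℕ), i + n = p ^ 2 + p → 0 < i →
    ∀ u : Kb, u ≠ 0 → FixedBy N u → InU P π1 i u →
    ∃ z : Kb, FixedBy N z ∧ z ≠ 0 ∧ (u = z ^ p ∨
      ∃ (i' : ℕ) (a : Kb), 0 < i' ∧ i' < p ^ 2 + p ∧ ¬ p ∣ i' ∧ a ∈ inertiaRing P ∧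
        a ∉ P.nonunits ∧ LcAt P π1 i' (u / z ^ p) a) := by
  intro n
  induction n with
  | zero =>
    intro i hi hi0 u hu0 hu h
    have hi' : i = p ^ 2 + p := by omega
    subst hi'
    obtain ⟨y, hy, e⟩ := u2 S u hu h
    refine ⟨y, hy, ?_, Or.inl e.symm⟩
    intro h0
    rw [h0, zero_pow S.hp.ne_zero] at e
    exact hu0 e.symm
  | succ n ih =>
    intro i hi hi0 u hu0 hu h
    have hilt : i < p ^ 2 + p := by omega
    by_cases hpi : p ∣ i
    · obtain ⟨z, hz, hz0, hin⟩ := u3b S hpi hi0 hilt hu h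
      have hzp0 : z ^ p ≠ 0 := pow_ne_zero _ hz0
      obtain ⟨z', hz', hz'0, hcase⟩ := ih (i + 1) (by omega) (by omega) (u / z ^ p)
        (div_ne_zero hu0 hzp0) (hu.div (hz.pow p)) hin
      refine ⟨z * z', hz.mul hz', mul_ne_zero hz0 hz'0, ?_⟩
      rcases hcase with hc | ⟨i', a, h1, h2, h3, h4, h5, h6⟩
      · left
        rw [mul_pow, ← hc]
        field_simp
      · right
        refine ⟨i', a, h1, h2, h3, h4, h5, ?_⟩
        have : u / (z * z') ^ p = u / z ^ p / z' ^ p := by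
          rw [mul_pow, div_div]
        rwa [this]
    · obtain ⟨a, ha, hlc⟩ := u1 S i u hu h
      by_cases ham : a ∈ P.nonunits
      · have hlc0 : LcAt P π1 i u 0 :=
          lcAt_congr S ha (inertiaRing P).zero_mem hlc (by rwa [sub_zero])
        rw [← inU_succ_iff] at hlc0
        exact ih (i + 1) (by omega) (by omega) u hu0 hu hlc0
      · refine ⟨1, FixedBy.one, one_ne_zero, Or.inr ⟨i, a, hi0, hilt, hpi, ha, ham, ?_⟩⟩
        rwa [one_pow, div_one]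

theorem un_zpow_fixed {x : Kb} (hx : FixedBy N x) (n : ℤ) : FixedBy N (x ^ n) :=
  fun σ hσ => by rw [map_zpow₀, hx σ hσ]

/-- The normal form for elements of `P`. -/
theorem un_normal_form_int (S : UnitSetting p P π1 N) {u : Kb} (huP : u ∈ P) (hu0 : u ≠ 0)
    (hu : FixedBy N u) :
    ∃ z : Kb, FixedBy N z ∧ z ≠ 0 ∧
    ((∃ m : ℕ, 0 < m ∧ m < p ∧ u / z ^ p / π1 ^ m ∈ P ∧ π1 ^ m / (u / z ^ p) ∈ P) ∨
      u = z ^ p ∨
      ∃ (i : ℕ) (a : Kb), 0 < i ∧ i < p ^ 2 + p ∧ ¬ p ∣ i ∧ a ∈ inertiaRing P ∧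
        a ∉ P.nonunits ∧ LcAt P π1 i (u / z ^ p) a) := by
  have hpp := S.hp.pos
  have hπ0 := un_pi_ne_zero S
  obtain ⟨k, u₀, hk, hu₀, hu₀inv, hu₀0, hu₀fix⟩ := un_exists_level S huP hu0 hu
  have hkdiv : k = p * (k / p) + k % p := (Nat.div_add_mod k p).symm
  have hz1 : π1 ^ (k / p) ≠ 0 := un_pi_pow_ne_zero S _
  have hz1p : (π1 ^ (k / p)) ^ p ≠ 0 := pow_ne_zero _ hz1
  have hpow : π1 ^ k = (π1 ^ (k / p)) ^ p * π1 ^ (k % p) := by
    rw [← pow_mul, ← pow_add, mul_comm (k / p) p, Nat.div_add_mod]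
  have hdiv : u / (π1 ^ (k / p)) ^ p = π1 ^ (k % p) * u₀ := by
    rw [hk, hpow]
    field_simp
  rcases Nat.eq_zero_or_pos (k % p) with hm | hm
  · -- a unit, up to a `p`-th power
    rw [hm, pow_zero, one_mul] at hdiv
    obtain ⟨b, hb, hub⟩ := exists_inertiaRing_pow_sub_mem S.hp S.hP hu₀
    have hbm : b ∉ P.nonunits := by
      intro hbm
      have h1 : b ^ p ∈ P.nonunits := by
        obtain ⟨q, hq⟩ : ∃ q, p = q + 1 := ⟨p - 1, by omega⟩
        rw [hq, pow_succ]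
        exact un_mul_mem_nonunits' (pow_mem hb.1 _) hbm
      have h2 : u₀ ∈ P.nonunits := by
        have : u₀ = (u₀ - b ^ p) + b ^ p := by ring
        rw [this]
        exact un_add_mem_nonunits hub h1
      have h3 := un_mul_mem_nonunits h2 hu₀inv
      rw [mul_inv_cancel₀ hu₀0, P.mem_nonunits_iff, map_one] at h3
      exact lt_irrefl _ h3
    have hbinv : b⁻¹ ∈ P := un_inv_mem hb.1 hbm
    have hb0 : b ≠ 0 := by
      intro h0
      apply hbm
      rw [h0, P.mem_nonunits_iff, map_zero]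
      exact zero_lt_one
    have hbp0 : b ^ p ≠ 0 := pow_ne_zero _ hb0
    have hbfix : FixedBy N b := un_fixed_of_inertiaRing S hb
    -- `u₁ = u₀ / b ^ p ∈ U(1)`
    have hu1fix : FixedBy N (u₀ / b ^ p) := hu₀fix.div (hbfix.pow p)
    have hu1m : u₀ / b ^ p - 1 ∈ P.nonunits := by
      have : u₀ / b ^ p - 1 = (u₀ - b ^ p) * (b⁻¹) ^ p := by
        rw [inv_pow]
        field_simp
      rw [this]
      exact un_mul_mem_nonunits hub (pow_mem hbinv _)
    have hin : InU P π1 1 (u₀ / b ^ p) := by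
      have := S.unif _ hu1m (hu1fix.sub FixedBy.one)
      show (u₀ / b ^ p - 1) / π1 ^ 1 ∈ P
      rwa [pow_one]
    have hN := un_e1_succ S
    obtain ⟨z, hz, hz0, hcase⟩ := un_climb S (p ^ 2 + p - 1) 1
      (by have : 1 ≤ p ^ 2 + p := by
            have := Nat.one_le_pow 2 p hpp
            omega
          omega) Nat.one_pos (u₀ / b ^ p)
      (div_ne_zero hu₀0 hbp0) hu1fix hin
    refine ⟨π1 ^ (k / p) * b * z, ((S.hπN.pow _).mul hbfix).mul hz,
      mul_ne_zero (mul_ne_zero hz1 hb0) hz0, Or.inr ?_⟩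
    have hzp0 : z ^ p ≠ 0 := pow_ne_zero _ hz0
    have hu_eq : u = (π1 ^ (k / p)) ^ p * u₀ := by
      rw [← hdiv]; field_simp
    rcases hcase with hc | ⟨i', a, h1, h2, h3, h4, h5, h6⟩
    · left
      rw [mul_pow, mul_pow, ← hc, hu_eq]
      field_simp
    · right
      refine ⟨i', a, h1, h2, h3, h4, h5, ?_⟩
      have : u / (π1 ^ (k / p) * b * z) ^ p = u₀ / b ^ p / z ^ p := by
        rw [hu_eq, mul_pow, mul_pow]
        field_simp
      rwa [this]
  · -- a non-unit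
    refine ⟨π1 ^ (k / p), S.hπN.pow _, hz1, Or.inl ⟨k % p, hm, Nat.mod_lt _ hpp, ?_, ?_⟩⟩
    · rw [hdiv]
      have : π1 ^ (k % p) * u₀ / π1 ^ (k % p) = u₀ := by
        have := un_pi_pow_ne_zero S (k % p)
        field_simp
      rwa [this]
    · rw [hdiv]
      have : π1 ^ (k % p) / (π1 ^ (k % p) * u₀) = u₀⁻¹ := by
        have := un_pi_pow_ne_zero S (k % p)
        field_simp
      rwa [this]

theorem u6 (S : UnitSetting p P π1 N) : U6Statement p P π1 N := by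
  intro u hu0 hu
  have hp0 := un_p_ne_zero S
  obtain ⟨m, hm⟩ := dvdProp S.hp S.hP u⁻¹ (inv_ne_zero hu0)
  have hm' : (p : Kb) ^ m * u ∈ P := by
    have : (p : Kb) ^ m / u⁻¹ = (p : Kb) ^ m * u := by rw [div_inv_eq_mul]
    rwa [this] at hm
  have hpm0 : ((p : Kb) ^ m) ≠ 0 := pow_ne_zero _ hp0
  have hpmfix : FixedBy N ((p : Kb) ^ m) := (FixedBy.natCast p).pow m
  set c := (p : Kb) ^ m with hc
  have hu'P : c ^ p * u ∈ P := by
    obtain ⟨q, hq⟩ : ∃ q, p = q + 1 := ⟨p - 1, by have := S.hp.pos; omega⟩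
    have : c ^ p * u = c ^ q * (c * u) := by rw [hq, pow_succ]; ring
    rw [this]
    exact P.mul_mem _ _ (pow_mem (pow_mem (natCast_mem P p) m) q) hm'
  have hu'0 : c ^ p * u ≠ 0 := mul_ne_zero (pow_ne_zero _ hpm0) hu0
  obtain ⟨z, hz, hz0, hcase⟩ := un_normal_form_int S hu'P hu'0 ((hpmfix.pow p).mul hu)
  refine ⟨z / c, hz.div hpmfix, div_ne_zero hz0 hpm0, ?_⟩
  have hzp0 : z ^ p ≠ 0 := pow_ne_zero _ hz0
  have hcp0 : c ^ p ≠ 0 := pow_ne_zero _ hpm0
  have key : u / (z / c) ^ p = c ^ p * u / z ^ p := by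
    rw [div_pow]; field_simp
  rw [key]
  rcases hcase with h1 | h1 | h1
  · exact Or.inl h1
  · refine Or.inr (Or.inl ?_)
    rw [div_pow, ← h1]; field_simp
  · exact Or.inr (Or.inr h1)

end Fermat.Agent.FFL.FB
end MergeWrap_Lib_FFL_FB_Unit

section MergeWrap_Lib_FFL_FB_PeuMono -- from Lib/FFL/FB/PeuMono.lean

set_option autoImplicit false
set_option linter.unusedSectionVars false
set_option linter.unusedVariables false

namespace Fermat.Agent.FFL.FB

open Fermat.Agent.FFL Polynomial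

local notation "Kb" => AlgebraicClosure ℚ
local notation "GK" => (AlgebraicClosure ℚ ≃ₐ[ℚ] AlgebraicClosure ℚ)

variable {p : ℕ} {P : ValuationSubring Kb}

/-- The stabiliser of `ζ` and `α` in the inertia group: the group of `M = K0(ζ, α)`. -/
noncomputable def peuStab (P : ValuationSubring Kb) (ζ α : Kb) : Subgroup GK :=
  stabI P ζ ⊓ stabI P α

theorem mem_peuStab {ζ α : Kb} {σ : GK} :
    σ ∈ peuStab P ζ α ↔ σ ∈ P.inertiaSubgroupIn ℚ ∧ σ ζ = ζ ∧ σ α = α := by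
  rw [peuStab, Subgroup.mem_inf, mem_stabI, mem_stabI]
  tauto

theorem peuStab_le (P : ValuationSubring Kb) (ζ α : Kb) :
    peuStab P ζ α ≤ P.inertiaSubgroupIn ℚ := fun _ h => (mem_peuStab.1 h).1

/-- The uniformiser of `M`. -/
noncomputable def peuUnif (ζ α : Kb) : Kb := (ζ - 1) / (α - 1)

/-! ### Valuations -/

theorem pm_binom (hp : p.Prime) {w : Kb} (hw : w ∈ P) :
    ∃ T ∈ P, (1 + w) ^ p = 1 + w ^ p + (p : Kb) * w * (1 + w * T) := by
  obtain ⟨T, hT⟩ := fb_exists_binom p hp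
  have hTm : aeval w T ∈ P := fb_aeval_mem P.toSubring hw T
  have h : (1 + w) ^ p = 1 + (p : Kb) * w + (p : Kb) * w ^ 2 * (aeval w T) + w ^ p := by
    convert hT Kb w using 4
    rw [aeval_def, aeval_def]
    congr 1
  exact ⟨aeval w T, hTm, by rw [h]; ring⟩

theorem pm_p_mem_nonunits (hP : P.LiesOverPrime p) : (p : Kb) ∈ P.nonunits :=
  (P.mem_nonunits_iff).2 (ar_val_p_lt hP)

/-- `α ^ p = 1 + p z` with `z` integral: `α - 1` is in the maximal ideal, and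
`(α - 1) ^ p = p (z - (α - 1) c)` with `c` integral. -/
theorem pm_alpha_aux (hp : p.Prime) (hP : P.LiesOverPrime p) {α z : Kb} (hz : z ∈ P)
    (hα : α ^ p = 1 + (p : Kb) * z) :
    α ∈ P ∧ α - 1 ∈ P.nonunits ∧
      ∃ c ∈ P, (α - 1) ^ p = (p : Kb) * (z - (α - 1) * c) := by
  have hpm := pm_p_mem_nonunits hP
  have hαP : α ∈ P := by
    apply un_mem_of_pow hp.ne_zero
    rw [hα]
    exact P.add_mem _ _ P.one_mem (P.mul_mem _ _ (P.nonunits_subset hpm) hz)
  have hyP : α - 1 ∈ P := sub_mem hαP P.one_mem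
  obtain ⟨T, hT, hb⟩ := pm_binom hp hyP
  have hcP : 1 + (α - 1) * T ∈ P := P.add_mem _ _ P.one_mem (P.mul_mem _ _ hyP hT)
  have h1 : (α - 1) ^ p = (p : Kb) * (z - (α - 1) * (1 + (α - 1) * T)) := by
    have h2 : (1 + (α - 1)) ^ p = α ^ p := by ring_nf
    rw [hb, hα] at h2
    linear_combination h2
  refine ⟨hαP, ?_, _, hcP, h1⟩
  apply un_mem_nonunits_of_pow (n := p)
  rw [h1]
  exact un_mul_mem_nonunits hpm (sub_mem hz (P.mul_mem _ _ hyP hcP))

/-- `v (α - 1) ^ p = v p` for `α ^ p = 1 + p z`, `z` a unit. -/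
theorem pm_val_alpha (hp : p.Prime) (hP : P.LiesOverPrime p) {α z : Kb} (hz : z ∈ P)
    (hzu : z ∉ P.nonunits) (hα : α ^ p = 1 + (p : Kb) * z) :
    P.valuation (α - 1) ^ p = P.valuation (p : Kb) := by
  obtain ⟨hαP, hym, c, hc, h1⟩ := pm_alpha_aux hp hP hz hα
  have hu : P.valuation (z - (α - 1) * c) = 1 := by
    have hzv : P.valuation z = 1 := fm_val_eq_one hz hzu
    have hlt : P.valuation ((α - 1) * c) < P.valuation z := by
      rw [hzv, ← P.mem_nonunits_iff]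
      exact un_mul_mem_nonunits hym hc
    rw [Valuation.map_sub_eq_of_lt_left _ hlt, hzv]
  rw [← map_pow, h1, map_mul, hu, mul_one]

theorem pm_alpha_ne_one (hp : p.Prime) (hP : P.LiesOverPrime p) {α z : Kb} (hz : z ∈ P)
    (hzu : z ∉ P.nonunits) (hα : α ^ p = 1 + (p : Kb) * z) : α - 1 ≠ 0 := by
  intro h
  have h1 := pm_val_alpha hp hP hz hzu hα
  rw [h, map_zero, zero_pow hp.ne_zero] at h1
  exact (Valuation.ne_zero_iff _).2 (ar_p_ne_zero hp) h1.symm

theorem pm_two_le_mul (hp : p.Prime) (hp2 : p ≠ 2) : 2 ≤ p - 1 := by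
  have := hp.two_le
  omega

/-- `v ϖ ^ (p (p - 1)) = v p`. -/
theorem pm_val_unif (hp : p.Prime) (hP : P.LiesOverPrime p) {ζ α z : Kb}
    (hζ : IsPrimitiveRoot ζ p) (hz : z ∈ P) (hzu : z ∉ P.nonunits)
    (hα : α ^ p = 1 + (p : Kb) * z) :
    P.valuation (peuUnif ζ α) ^ (p * (p - 1)) = P.valuation (p : Kb) := by
  have h1 : P.valuation (ζ - 1) ^ (p - 1) = P.valuation (p : Kb) :=
    val_root_sub_one_pow hp hζ.pow_eq_one (hζ.ne_one hp.one_lt)
  have h2 := pm_val_alpha hp hP hz hzu hα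
  have hv0 : P.valuation (p : Kb) ≠ 0 := (Valuation.ne_zero_iff _).2 (ar_p_ne_zero hp)
  have hp1 : p - 1 + 1 = p := Nat.sub_add_cancel hp.pos
  rw [peuUnif, map_div₀, div_pow]
  have e1 : P.valuation (ζ - 1) ^ (p * (p - 1)) = P.valuation (p : Kb) ^ p := by
    rw [mul_comm, pow_mul, h1]
  have e2 : P.valuation (α - 1) ^ (p * (p - 1)) = P.valuation (p : Kb) ^ (p - 1) := by
    rw [pow_mul, h2]
  rw [e1, e2, div_eq_iff (pow_ne_zero _ hv0), ← pow_succ', hp1]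

/-! ### The index of `peuStab` in the inertia group -/

theorem pm_mem_decomp {σ : GK} (hσ : σ ∈ P.inertiaSubgroupIn ℚ) :
    σ ∈ P.decompositionSubgroup ℚ := by
  obtain ⟨τ, _, rfl⟩ := hσ
  exact τ.2

theorem pm_subgroupOf_eq_stabilizer (ζ α : Kb) :
    (peuStab P ζ α).subgroupOf (P.inertiaSubgroupIn ℚ) =
      MulAction.stabilizer ↥(P.inertiaSubgroupIn ℚ) ((ζ, α) : Kb × Kb) := by
  ext σ
  rw [Subgroup.mem_subgroupOf, MulAction.mem_stabilizer_iff, mem_peuStab]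
  constructor
  · rintro ⟨_, h1, h2⟩
    exact Prod.ext h1 h2
  · intro h
    exact ⟨σ.2, congrArg Prod.fst h, congrArg Prod.snd h⟩

theorem pm_orbit_subset (hp : p.Prime) {ζ α a : Kb} (hζ : IsPrimitiveRoot ζ p) (hα : α ^ p = a)
    (ha : ∀ σ ∈ P.inertiaSubgroupIn ℚ, σ a = a) :
    MulAction.orbit ↥(P.inertiaSubgroupIn ℚ) ((ζ, α) : Kb × Kb) ⊆
      ↑((primitiveRoots p Kb) ×ˢ (nthRootsFinset p a)) := by
  rintro _ ⟨σ, rfl⟩
  rw [Finset.mem_coe, Finset.mem_product]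
  constructor
  · rw [mem_primitiveRoots hp.pos]
    exact hζ.map_of_injective σ.1.injective
  · rw [mem_nthRootsFinset hp.pos]
    show (σ.1 α) ^ p = a
    rw [← map_pow, hα, ha σ.1 σ.2]

/-- `[I : H] ≤ p (p - 1)` and `[I : H] ≠ 0`. -/
theorem pm_relIndex_le (hp : p.Prime) {ζ α a : Kb} (hζ : IsPrimitiveRoot ζ p) (hα : α ^ p = a)
    (ha : ∀ σ ∈ P.inertiaSubgroupIn ℚ, σ a = a) :
    (peuStab P ζ α).relIndex (P.inertiaSubgroupIn ℚ) ≠ 0 ∧
      (peuStab P ζ α).relIndex (P.inertiaSubgroupIn ℚ) ≤ p * (p - 1) := by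
  classical
  have hsub := pm_orbit_subset (P := P) hp hζ hα ha
  have hfin : (MulAction.orbit ↥(P.inertiaSubgroupIn ℚ) ((ζ, α) : Kb × Kb)).Finite :=
    Set.Finite.subset (Finset.finite_toSet _) hsub
  have hidx : (peuStab P ζ α).relIndex (P.inertiaSubgroupIn ℚ) =
      (MulAction.orbit ↥(P.inertiaSubgroupIn ℚ) ((ζ, α) : Kb × Kb)).ncard := by
    rw [Subgroup.relIndex, pm_subgroupOf_eq_stabilizer, MulAction.index_stabilizer]
  rw [hidx]
  refine ⟨Set.ncard_ne_zero_of_mem (MulAction.mem_orbit_self _) hfin, ?_⟩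
  refine (Set.ncard_le_ncard hsub (Finset.finite_toSet _)).trans ?_
  rw [Set.ncard_coe_finset, Finset.card_product, hζ.card_primitiveRoots, Nat.totient_prime hp,
    mul_comm]
  refine Nat.mul_le_mul_right _ ?_
  exact (Multiset.toFinset_card_le _).trans (card_nthRoots p a)

/-! ### Orbits and the value group of the base -/

/-- The valuation of an element with finite orbit under `Γ0`, raised to the cardinality of the
orbit, is in the value group of the fixed field of `Γ0` (valuation of the norm). -/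
theorem pm_orbit_val (hp : p.Prime) (hP : P.LiesOverPrime p) (Γ0 : Subgroup GK)
    (hΓ0 : Γ0 ≤ P.decompositionSubgroup ℚ) {π0 : Kb} (hπ0 : π0 ≠ 0) (hπ0m : π0 ∈ P.nonunits)
    (hπ0fix : ∀ σ ∈ Γ0, σ π0 = π0)
    (hunif : ∀ x ∈ P.nonunits, (∀ σ ∈ Γ0, σ x = x) → x / π0 ∈ P)
    {x : Kb} (hxP : x ∈ P) (hx0 : x ≠ 0) (hfin : (MulAction.orbit ↥Γ0 x).Finite) :
    ∃ m : ℕ, P.valuation x ^ (MulAction.orbit ↥Γ0 x).ncard = P.valuation π0 ^ m := by
  classical
  set T : Finset Kb := hfin.toFinset with hT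
  have hmemT : ∀ y, y ∈ T ↔ ∃ σ ∈ Γ0, σ x = y := by
    intro y
    rw [hT, Set.Finite.mem_toFinset, MulAction.mem_orbit_iff]
    constructor
    · rintro ⟨σ, rfl⟩
      exact ⟨σ.1, σ.2, rfl⟩
    · rintro ⟨σ, hσ, rfl⟩
      exact ⟨⟨σ, hσ⟩, rfl⟩
  have hval : ∀ y ∈ T, P.valuation y = P.valuation x := by
    intro y hy
    obtain ⟨σ, hσ, rfl⟩ := (hmemT y).1 hy
    exact val_decomp (hΓ0 hσ) x
  have hNval : P.valuation (∏ y ∈ T, y) = P.valuation x ^ (MulAction.orbit ↥Γ0 x).ncard := by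
    rw [map_prod, Finset.prod_congr rfl hval, Finset.prod_const,
      Set.ncard_eq_toFinset_card _ hfin]
  have hN0 : (∏ y ∈ T, y) ≠ 0 := by
    rw [Finset.prod_ne_zero_iff]
    intro y hy h0
    have := hval y hy
    rw [h0, map_zero] at this
    exact (Valuation.ne_zero_iff _).2 hx0 this.symm
  have hNP : (∏ y ∈ T, y) ∈ P := by
    refine prod_mem fun y hy => ?_
    rw [← P.valuation_le_one_iff, hval y hy]
    exact (P.valuation_le_one_iff _).2 hxP
  have hNfix : ∀ σ ∈ Γ0, σ (∏ y ∈ T, y) = ∏ y ∈ T, y := by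
    intro σ hσ
    rw [map_prod]
    refine Finset.prod_bij (fun y _ => σ y) ?_ (fun y _ y' _ h => σ.injective h) ?_
      (fun y _ => rfl)
    · intro y hy
      obtain ⟨τ, hτ, rfl⟩ := (hmemT y).1 hy
      exact (hmemT _).2 ⟨σ * τ, mul_mem hσ hτ, rfl⟩
    · intro y hy
      obtain ⟨τ, hτ, rfl⟩ := (hmemT y).1 hy
      refine ⟨(σ⁻¹ * τ) x, (hmemT _).2 ⟨σ⁻¹ * τ, mul_mem (inv_mem hσ) hτ, rfl⟩, ?_⟩
      show σ ((σ⁻¹ * τ) x) = τ x
      rw [← AlgEquiv.mul_apply, mul_inv_cancel_left]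
  obtain ⟨m, hm⟩ := fm_val_eq_pow hp hP Γ0 hπ0 hπ0m hπ0fix hunif hN0 hNP hNfix
  exact ⟨m, by rw [← hNval, hm]⟩

/-! ### The setting and the main statement -/

/-- The peu ramifiée setting: `ζ` a primitive `p`-th root of unity, `α ^ p = 1 + p z` with `z` a
unit of the inertia ring (`p` odd). -/
structure PeuSetting (p : ℕ) (P : ValuationSubring Kb) (ζ α z : Kb) : Prop where
  hp : p.Prime
  hp2 : p ≠ 2
  hP : P.LiesOverPrime p
  hζ : IsPrimitiveRoot ζ p
  hz : z ∈ inertiaRing P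
  hzu : z ∉ P.nonunits
  hα : α ^ p = 1 + (p : Kb) * z

namespace PeuSetting

variable {ζ α z : Kb} (S : PeuSetting p P ζ α z)
include S

theorem d_ne_zero : p * (p - 1) ≠ 0 := by
  have := S.hp.two_le
  exact Nat.mul_ne_zero (by omega) (by omega)

theorem val_unif : P.valuation (peuUnif ζ α) ^ (p * (p - 1)) = P.valuation (p : Kb) :=
  pm_val_unif S.hp S.hP S.hζ S.hz.1 S.hzu S.hα

theorem val_p_ne_zero : P.valuation (p : Kb) ≠ 0 :=
  (Valuation.ne_zero_iff _).2 (ar_p_ne_zero S.hp)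

theorem val_unif_ne_zero : P.valuation (peuUnif ζ α) ≠ 0 := by
  intro h
  have := S.val_unif
  rw [h, zero_pow S.d_ne_zero] at this
  exact S.val_p_ne_zero this.symm

theorem unif_ne_zero : peuUnif ζ α ≠ 0 := (Valuation.ne_zero_iff _).1 S.val_unif_ne_zero

theorem val_unif_lt : P.valuation (peuUnif ζ α) < 1 := by
  by_contra h
  rw [not_lt] at h
  have h1 : 1 ≤ P.valuation (peuUnif ζ α) ^ (p * (p - 1)) := one_le_pow₀ h
  rw [S.val_unif] at h1
  exact absurd (ar_val_p_lt S.hP) (not_lt.2 h1)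

theorem unif_mem_nonunits : peuUnif ζ α ∈ P.nonunits := (P.mem_nonunits_iff).2 S.val_unif_lt

theorem unif_mem : peuUnif ζ α ∈ P := P.nonunits_subset S.unif_mem_nonunits

theorem a_fixed : ∀ σ ∈ P.inertiaSubgroupIn ℚ, σ (1 + (p : Kb) * z) = 1 + (p : Kb) * z := by
  intro σ hσ
  rw [map_add, map_one, map_mul, map_natCast, S.hz.2 σ hσ]

theorem unif_fixed : ∀ σ ∈ peuStab P ζ α, σ (peuUnif ζ α) = peuUnif ζ α := by
  intro σ hσ
  obtain ⟨_, h1, h2⟩ := mem_peuStab.1 hσ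
  rw [peuUnif, map_div₀, map_sub, map_sub, map_one, h1, h2]

/-- `[I : H] = p (p - 1)`. -/
theorem relIndex_eq :
    (peuStab P ζ α).relIndex (P.inertiaSubgroupIn ℚ) = p * (p - 1) := by
  obtain ⟨hD0, hDle⟩ := pm_relIndex_le (P := P) S.hp S.hζ S.hα S.a_fixed
  -- the stabiliser of `ϖ`
  have hle : (peuStab P ζ α).subgroupOf (P.inertiaSubgroupIn ℚ) ≤
      MulAction.stabilizer ↥(P.inertiaSubgroupIn ℚ) (peuUnif ζ α) := by
    intro σ hσ
    rw [MulAction.mem_stabilizer_iff]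
    exact S.unif_fixed σ.1 (Subgroup.mem_subgroupOf.1 hσ)
  have hdvd := Subgroup.index_dvd_of_le hle
  rw [MulAction.index_stabilizer] at hdvd
  have hD : ((peuStab P ζ α).subgroupOf (P.inertiaSubgroupIn ℚ)).index =
      (peuStab P ζ α).relIndex (P.inertiaSubgroupIn ℚ) := rfl
  rw [hD] at hdvd
  have hn0 : (MulAction.orbit ↥(P.inertiaSubgroupIn ℚ) (peuUnif ζ α)).ncard ≠ 0 := by
    intro h
    rw [h, zero_dvd_iff] at hdvd
    exact hD0 hdvd
  have hfin := Set.finite_of_ncard_ne_zero hn0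
  obtain ⟨m, hm⟩ := pm_orbit_val S.hp S.hP (P.inertiaSubgroupIn ℚ)
    (fun σ hσ => pm_mem_decomp hσ) (ar_p_ne_zero S.hp) (pm_p_mem_nonunits S.hP)
    (fun σ _ => map_natCast σ p) (unrProp p S.hp P S.hP) S.unif_mem S.unif_ne_zero hfin
  rw [← S.val_unif, ← pow_mul] at hm
  have hinj := pow_right_injective₀ (zero_lt_iff.2 S.val_unif_ne_zero) S.val_unif_lt.ne
  have hnm : (MulAction.orbit ↥(P.inertiaSubgroupIn ℚ) (peuUnif ζ α)).ncard =
      p * (p - 1) * m := hinj hm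
  have hdD : p * (p - 1) ∣ (peuStab P ζ α).relIndex (P.inertiaSubgroupIn ℚ) :=
    (Dvd.intro m hnm.symm).trans hdvd
  exact le_antisymm hDle (Nat.le_of_dvd (Nat.pos_of_ne_zero hD0) hdD)

/-- **(d0)**: `M = K0(ζ, α)` is totally ramified over `K0` of degree `p (p - 1)` with
uniformiser `ϖ = (ζ - 1) / (α - 1)`. -/
theorem monoSetting :
    MonoSetting p P (P.inertiaSubgroupIn ℚ) (peuStab P ζ α) (p * (p - 1)) (p : Kb)
      (peuUnif ζ α) where
  hp := S.hp
  hP := S.hP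
  hΓ0 := fun σ hσ => pm_mem_decomp hσ
  hΓ := peuStab_le P ζ α
  hd := S.relIndex_eq
  hd0 := S.d_ne_zero
  hπ0 := ar_p_ne_zero S.hp
  hπ0m := pm_p_mem_nonunits S.hP
  hπ0fix := fun σ _ => map_natCast σ p
  hunif := unrProp p S.hp P S.hP
  hϖfix := S.unif_fixed
  hϖ1 := by
    rw [← P.valuation_le_one_iff, map_div₀, map_pow, S.val_unif, div_self S.val_p_ne_zero]
  hϖ2 := by
    rw [P.mem_nonunits_iff, map_div₀, map_pow, S.val_unif, div_self S.val_p_ne_zero]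
    exact lt_irrefl _

/-! ### The cyclotomic layer `K1 = K0(ζ)` and the relative layer `M / K1` -/

theorem stab_subgroupOf_eq_stabilizer :
    (stabI P ζ).subgroupOf (P.inertiaSubgroupIn ℚ) =
      MulAction.stabilizer ↥(P.inertiaSubgroupIn ℚ) (ζ - 1) := by
  ext σ
  rw [Subgroup.mem_subgroupOf, MulAction.mem_stabilizer_iff, mem_stabI]
  constructor
  · rintro ⟨_, h1⟩
    show σ.1 (ζ - 1) = ζ - 1
    rw [map_sub, map_one, h1]
  · intro h
    have h1 : σ.1 (ζ - 1) = ζ - 1 := h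
    rw [map_sub, map_one] at h1
    exact ⟨σ.2, sub_left_injective h1⟩

theorem zeta_sub_one_ne_zero : ζ - 1 ≠ 0 := sub_ne_zero.2 (S.hζ.ne_one S.hp.one_lt)

theorem val_zeta : P.valuation (ζ - 1) ^ (p - 1) = P.valuation (p : Kb) :=
  val_root_sub_one_pow S.hp S.hζ.pow_eq_one (S.hζ.ne_one S.hp.one_lt)

theorem val_zeta_ne_zero : P.valuation (ζ - 1) ≠ 0 :=
  (Valuation.ne_zero_iff _).2 S.zeta_sub_one_ne_zero

theorem p_sub_one_ne_zero : p - 1 ≠ 0 := by
  have := S.hp.two_le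
  omega

theorem val_zeta_lt : P.valuation (ζ - 1) < 1 := by
  by_contra h
  rw [not_lt] at h
  have h1 : 1 ≤ P.valuation (ζ - 1) ^ (p - 1) := one_le_pow₀ h
  rw [S.val_zeta] at h1
  exact absurd (ar_val_p_lt S.hP) (not_lt.2 h1)

theorem zeta_sub_one_mem_nonunits : ζ - 1 ∈ P.nonunits := (P.mem_nonunits_iff).2 S.val_zeta_lt

/-- `[I : I₁] = p - 1`, `I₁ = stabI P ζ`. -/
theorem relIndex_cyc : (stabI P ζ).relIndex (P.inertiaSubgroupIn ℚ) = p - 1 := by
  classical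
  have hsub : MulAction.orbit ↥(P.inertiaSubgroupIn ℚ) (ζ - 1) ⊆
      ↑((primitiveRoots p Kb).image (fun y => y - 1)) := by
    rintro _ ⟨σ, rfl⟩
    rw [Finset.mem_coe, Finset.mem_image]
    refine ⟨σ.1 ζ, ?_, ?_⟩
    · rw [mem_primitiveRoots S.hp.pos]
      exact S.hζ.map_of_injective σ.1.injective
    · show σ.1 ζ - 1 = σ.1 (ζ - 1)
      rw [map_sub, map_one]
  have hfin : (MulAction.orbit ↥(P.inertiaSubgroupIn ℚ) (ζ - 1)).Finite :=
    Set.Finite.subset (Finset.finite_toSet _) hsub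
  have hidx : (stabI P ζ).relIndex (P.inertiaSubgroupIn ℚ) =
      (MulAction.orbit ↥(P.inertiaSubgroupIn ℚ) (ζ - 1)).ncard := by
    rw [Subgroup.relIndex, S.stab_subgroupOf_eq_stabilizer, MulAction.index_stabilizer]
  have hle : (MulAction.orbit ↥(P.inertiaSubgroupIn ℚ) (ζ - 1)).ncard ≤ p - 1 := by
    refine (Set.ncard_le_ncard hsub (Finset.finite_toSet _)).trans ?_
    rw [Set.ncard_coe_finset]
    refine Finset.card_image_le.trans ?_
    rw [S.hζ.card_primitiveRoots, Nat.totient_prime S.hp]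
  have hn0 : (MulAction.orbit ↥(P.inertiaSubgroupIn ℚ) (ζ - 1)).ncard ≠ 0 :=
    Set.ncard_ne_zero_of_mem (MulAction.mem_orbit_self _) hfin
  obtain ⟨m, hm⟩ := pm_orbit_val S.hp S.hP (P.inertiaSubgroupIn ℚ)
    (fun σ hσ => pm_mem_decomp hσ) (ar_p_ne_zero S.hp) (pm_p_mem_nonunits S.hP)
    (fun σ _ => map_natCast σ p) (unrProp p S.hp P S.hP)
    (P.nonunits_subset S.zeta_sub_one_mem_nonunits) S.zeta_sub_one_ne_zero hfin
  rw [← S.val_zeta, ← pow_mul] at hm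
  have hinj := pow_right_injective₀ (zero_lt_iff.2 S.val_zeta_ne_zero) S.val_zeta_lt.ne
  have hnm : (MulAction.orbit ↥(P.inertiaSubgroupIn ℚ) (ζ - 1)).ncard = (p - 1) * m :=
    hinj hm
  rw [hidx]
  exact le_antisymm hle (Nat.le_of_dvd (Nat.pos_of_ne_zero hn0) (Dvd.intro m hnm.symm))

/-- The cyclotomic layer: `K1 = K0(ζ)` is totally ramified of degree `p - 1` over `K0` with
uniformiser `ζ - 1`. -/
theorem monoSetting_cyc :
    MonoSetting p P (P.inertiaSubgroupIn ℚ) (stabI P ζ) (p - 1) (p : Kb) (ζ - 1) where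
  hp := S.hp
  hP := S.hP
  hΓ0 := fun σ hσ => pm_mem_decomp hσ
  hΓ := stabI_le P ζ
  hd := S.relIndex_cyc
  hd0 := S.p_sub_one_ne_zero
  hπ0 := ar_p_ne_zero S.hp
  hπ0m := pm_p_mem_nonunits S.hP
  hπ0fix := fun σ _ => map_natCast σ p
  hunif := unrProp p S.hp P S.hP
  hϖfix := fun σ hσ => by rw [map_sub, map_one, (mem_stabI.1 hσ).2]
  hϖ1 := by
    rw [← P.valuation_le_one_iff, map_div₀, map_pow, S.val_zeta, div_self S.val_p_ne_zero]
  hϖ2 := by
    rw [P.mem_nonunits_iff, map_div₀, map_pow, S.val_zeta, div_self S.val_p_ne_zero]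
    exact lt_irrefl _

theorem peuStab_le_stab : peuStab P ζ α ≤ stabI P ζ := inf_le_left

/-- `[I₁ : H] = p`. -/
theorem relIndex_rel : (peuStab P ζ α).relIndex (stabI P ζ) = p := by
  have h := Subgroup.relIndex_mul_relIndex (peuStab P ζ α) (stabI P ζ) (P.inertiaSubgroupIn ℚ)
    S.peuStab_le_stab (stabI_le P ζ)
  rw [S.relIndex_cyc, S.relIndex_eq] at h
  exact Nat.eq_of_mul_eq_mul_right (Nat.pos_of_ne_zero S.p_sub_one_ne_zero) h

/-- `v ϖ ^ p = v (ζ - 1)`. -/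
theorem val_unif_pow_p : P.valuation (peuUnif ζ α) ^ p = P.valuation (ζ - 1) := by
  have h2 := pm_val_alpha S.hp S.hP S.hz.1 S.hzu S.hα
  have hp1 : p - 1 + 1 = p := Nat.sub_add_cancel S.hp.pos
  rw [peuUnif, map_div₀, div_pow, h2, ← S.val_zeta, div_eq_iff (pow_ne_zero _ S.val_zeta_ne_zero),
    ← pow_succ', hp1]

/-- The relative layer: `M = K1(α)` is totally ramified of degree `p` over `K1 = K0(ζ)` with
uniformiser `ϖ = (ζ - 1) / (α - 1)`. -/
theorem monoSetting_rel :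
    MonoSetting p P (stabI P ζ) (peuStab P ζ α) p (ζ - 1) (peuUnif ζ α) where
  hp := S.hp
  hP := S.hP
  hΓ0 := fun σ hσ => pm_mem_decomp (stabI_le P ζ hσ)
  hΓ := S.peuStab_le_stab
  hd := S.relIndex_rel
  hd0 := S.hp.ne_zero
  hπ0 := S.zeta_sub_one_ne_zero
  hπ0m := S.zeta_sub_one_mem_nonunits
  hπ0fix := fun σ hσ => by rw [map_sub, map_one, (mem_stabI.1 hσ).2]
  hunif := fun x hx hxfix => S.monoSetting_cyc.unif hx hxfix
  hϖfix := S.unif_fixed
  hϖ1 := by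
    rw [← P.valuation_le_one_iff, map_div₀, map_pow, S.val_unif_pow_p,
      div_self S.val_zeta_ne_zero]
  hϖ2 := by
    rw [P.mem_nonunits_iff, map_div₀, map_pow, S.val_unif_pow_p, div_self S.val_zeta_ne_zero]
    exact lt_irrefl _

/-! ### The break -/

/-- `s ϖ = ϖ / (ϖ + ζ)` for `s ζ = ζ`, `s α = ζ α`. -/
theorem smul_unif {s : GK} (hsζ : s ζ = ζ) (hsα : s α = ζ * α) :
    s (peuUnif ζ α) = peuUnif ζ α / (peuUnif ζ α + ζ) := by
  have h1 := pm_alpha_ne_one S.hp S.hP S.hz.1 S.hzu S.hα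
  have h2 := S.zeta_sub_one_ne_zero
  have h3 : ζ * α - 1 ≠ 0 := by
    intro h
    have h4 : s (α - 1) = 0 := by rw [map_sub, map_one, hsα, h]
    exact h1 ((map_eq_zero_iff s s.injective).1 h4)
  have h5 : peuUnif ζ α + ζ ≠ 0 := by
    have : peuUnif ζ α + ζ = (ζ * α - 1) / (α - 1) := by
      rw [peuUnif]; field_simp; ring
    rw [this]
    exact div_ne_zero h3 h1
  rw [eq_div_iff h5]
  rw [peuUnif, map_div₀, map_sub, map_sub, map_one, hsζ, hsα]
  field_simp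
  ring

/-- `ϖ + ζ` is a unit of `P`. -/
theorem val_unif_add_zeta : P.valuation (peuUnif ζ α + ζ) = 1 := by
  have hζv : P.valuation ζ = 1 := by
    have h := congrArg P.valuation S.hζ.pow_eq_one
    rw [map_pow, map_one] at h
    exact (pow_eq_one_iff_of_nonneg zero_le S.hp.ne_zero).1 h
  rw [Valuation.map_add_eq_of_lt_right _ (by rw [hζv]; exact S.val_unif_lt), hζv]

/-- **BREAK** for the uniformiser: `v (s ϖ - ϖ) = v ϖ ^ 2` (ramification break `1`). -/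
theorem val_smul_unif_sub {s : GK} (hsζ : s ζ = ζ) (hsα : s α = ζ * α) :
    P.valuation (s (peuUnif ζ α) - peuUnif ζ α) = P.valuation (peuUnif ζ α) ^ 2 := by
  have h5 : peuUnif ζ α + ζ ≠ 0 := by
    intro h
    have := S.val_unif_add_zeta
    rw [h, map_zero] at this
    exact zero_ne_one this
  have h1 : s (peuUnif ζ α) - peuUnif ζ α =
      -(peuUnif ζ α ^ 2 * (1 + (ζ - 1) / peuUnif ζ α) / (peuUnif ζ α + ζ)) := by
    rw [S.smul_unif hsζ hsα]
    have := S.unif_ne_zero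
    field_simp
    ring
  have h2 : P.valuation (1 + (ζ - 1) / peuUnif ζ α) = 1 := by
    have hlt : P.valuation ((ζ - 1) / peuUnif ζ α) < P.valuation (1 : Kb) := by
      rw [map_one, map_div₀, div_lt_iff₀ (zero_lt_iff.2 S.val_unif_ne_zero), one_mul,
        ← S.val_unif_pow_p]
      have hp1 : p = (p - 1) + 1 := (Nat.sub_add_cancel S.hp.pos).symm
      calc P.valuation (peuUnif ζ α) ^ p
          = P.valuation (peuUnif ζ α) ^ (p - 1) * P.valuation (peuUnif ζ α) := by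
            rw [← pow_succ, ← hp1]
        _ < 1 * P.valuation (peuUnif ζ α) := by
            refine mul_lt_mul_of_pos_right ?_ (zero_lt_iff.2 S.val_unif_ne_zero)
            exact pow_lt_one₀ zero_le S.val_unif_lt S.p_sub_one_ne_zero
        _ = P.valuation (peuUnif ζ α) := one_mul _
    rw [Valuation.map_add_eq_of_lt_left _ hlt, map_one]
  rw [h1, Valuation.map_neg, map_div₀, map_mul, map_pow, h2, S.val_unif_add_zeta, mul_one,
    div_one]

/-- `v p ≤ v ϖ ^ (p + 1)`: `v_M(p) = p (p - 1) ≥ p + 1`. -/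
theorem val_p_le : P.valuation (p : Kb) ≤ P.valuation (peuUnif ζ α) ^ (p + 1) := by
  rw [← S.val_unif]
  refine pow_le_pow_of_le_one zero_le S.val_unif_lt.le ?_
  have h3 : 3 ≤ p := by
    have := S.hp.two_le
    have := S.hp2
    omega
  obtain ⟨q, rfl⟩ : ∃ q, p = q + 3 := ⟨p - 3, by omega⟩
  have : (q + 3) * (q + 3 - 1) = q * q + 5 * q + 6 := by
    have : q + 3 - 1 = q + 2 := by omega
    rw [this]; ring
  rw [this]
  nlinarith

/-- A generator of `Gal(M / K1)`: `s ∈ I₁` with `s α = ζ α`. -/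
theorem exists_gen : ∃ s ∈ stabI P ζ, s α = ζ * α := by
  have hα0 : α ≠ 0 := by
    intro h
    have h1 := S.val_unif_add_zeta
    have h2 := pm_alpha_aux S.hp S.hP S.hz.1 S.hα
    have h3 : (1 : Kb) ∈ P.nonunits := by
      have := h2.2.1
      rw [h, zero_sub] at this
      simpa using un_neg_mem_nonunits this
    rw [P.mem_nonunits_iff, map_one] at h3
    exact lt_irrefl _ h3
  -- an element of `I₁` outside `H`
  have hne : ¬ stabI P ζ ≤ peuStab P ζ α := by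
    intro h
    have h1 := Subgroup.relIndex_eq_one.2 h
    rw [S.relIndex_rel] at h1
    exact S.hp.one_lt.ne' h1
  obtain ⟨s, hs, hsH⟩ := Set.not_subset.1 hne
  have hsI := (mem_stabI.1 hs).1
  have hsζ := (mem_stabI.1 hs).2
  have hsα : s α ≠ α := fun h => hsH (mem_peuStab.2 ⟨hsI, hsζ, h⟩)
  have hξp : (s α / α) ^ p = 1 := by
    rw [div_pow, ← map_pow, S.hα, S.a_fixed s hsI, div_self]
    rw [← S.hα]
    exact pow_ne_zero _ hα0
  have : NeZero p := ⟨S.hp.ne_zero⟩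
  obtain ⟨j, hjp, hj⟩ := S.hζ.eq_pow_of_pow_eq_one hξp
  have hj0 : j ≠ 0 := by
    rintro rfl
    rw [pow_zero] at hj
    exact hsα ((div_eq_one_iff_eq hα0).1 hj.symm)
  have hsα' : s α = ζ ^ j * α := by
    rw [hj]; field_simp
  have hcop : Nat.Coprime j p :=
    ((Nat.Prime.coprime_iff_not_dvd S.hp).2
      (Nat.not_dvd_of_pos_of_lt (Nat.pos_of_ne_zero hj0) hjp)).symm
  obtain ⟨m, -, hm⟩ := Nat.exists_mul_mod_eq_one_of_coprime hcop S.hp.one_lt
  have hpow : ∀ n : ℕ, (s ^ n) α = (ζ ^ j) ^ n * α := by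
    intro n
    induction n with
    | zero => simp
    | succ n ih =>
      have hsn : (s ^ n) ζ = ζ := (mem_stabI.1 (pow_mem hs n)).2
      rw [pow_succ, AlgEquiv.mul_apply, hsα', map_mul, map_pow, hsn, ih]
      ring
  refine ⟨s ^ m, pow_mem hs m, ?_⟩
  rw [hpow m, ← pow_mul]
  have h1 : j * m = p * (j * m / p) + 1 := by
    have := Nat.div_add_mod (j * m) p
    rw [hm] at this
    exact this.symm
  rw [h1, pow_add, pow_mul, S.hζ.pow_eq_one, one_pow, one_mul, pow_one]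

end PeuSetting

end Fermat.Agent.FFL.FB
end MergeWrap_Lib_FFL_FB_PeuMono
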